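/-
The package about the rational Tate module of `J₀(N)` consumed by the Galois representation files.
-/
import Fermat.Prelude.Def_ModularCurve_HeckeModule
import Fermat.Prelude.Def_CuspForm_HeckeAlgebra
import Mathlib.NumberTheory.Padics.RingHoms
import Mathlib.RingTheory.TensorProduct.Basic
import Mathlib.LinearAlgebra.Matrix.Notation

set_option autoImplicit false

open scoped TensorProduct

noncomputable section

namespace Fermat.Agent.GAL

variable (N : ℕ) [NeZero N] (p : ℕ) [Fact p.Prime]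

/-- The full weight two Hecke algebra of level `N`. -/
abbrev HeckeT : Type := ↥(CuspForm.heckeAlgebra N 2 (∅ : Set ℕ))

/-- `ℚ_[p] ⊗ 𝕋`, the ring over which the rational Tate module has rank two. -/
abbrev RatHecke : Type := ℚ_[p] ⊗[ℤ] HeckeT N

/-- `t ↦ 1 ⊗ t`. -/
def toRatHecke : HeckeT N →+* RatHecke N p :=
  (Algebra.TensorProduct.includeRight : HeckeT N →ₐ[ℤ] RatHecke N p).toRingHom

/-- The image of `ℤ_[p] ⊗ 𝕋` in `ℚ_[p] ⊗ 𝕋`. -/
def intHecke : Subring (RatHecke N p) :=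
  (Algebra.TensorProduct.map (PadicInt.Coe.ringHom : ℤ_[p] →+* ℚ_[p]).toIntAlgHom
    (AlgHom.id ℤ (HeckeT N))).toRingHom.range

theorem toRatHecke_mem_intHecke (t : HeckeT N) : toRatHecke N p t ∈ intHecke N p :=
  ⟨1 ⊗ₜ t, by simp [toRatHecke]⟩

/-- A two-dimensional matrix form of the Galois action on the rational `p`-adic Tate module of
`J₀(N)` over `ℚ_[p] ⊗ 𝕋`. -/
structure TateRep : Type where
  /-- The representation. -/
  rho : (AlgebraicClosure ℚ ≃ₐ[ℚ] AlgebraicClosure ℚ) →*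
    Matrix (Fin 2) (Fin 2) (RatHecke N p)
  /-- A bound for the denominators. -/
  denom : ℕ
  bounded : ∀ g i j, (p : RatHecke N p) ^ denom * rho g i j ∈ intHecke N p
  exists_diag : ∃ g, rho g = Matrix.diagonal ![(1 : RatHecke N p), -1]
  /-- Acting trivially on deep enough torsion forces congruence to `1`. -/
  near_one : ∀ n : ℕ, ∃ k : ℕ, ∀ g : AlgebraicClosure ℚ ≃ₐ[ℚ] AlgebraicClosure ℚ,
    (∀ x : ModularCurve.JZero N, p ^ k • x = 0 → g • x = x) →
      ∀ i j, ∃ y ∈ intHecke N p, rho g i j - (1 : Matrix (Fin 2) (Fin 2) (RatHecke N p)) i j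
        = (p : RatHecke N p) ^ n * y
  /-- A quadratic identity on all `p`-power torsion is inherited by the matrices. -/
  quad : ∀ (g : AlgebraicClosure ℚ ≃ₐ[ℚ] AlgebraicClosure ℚ) (ℓ : ℕ) (hℓ : ℓ.Prime)
    (hℓN : ¬ ℓ ∣ N),
    (∀ x : ModularCurve.JZero N, (∃ n : ℕ, p ^ n • x = 0) →
      g • g • x - ModularCurve.heckeOperatorBar N ⟨ℓ, hℓ⟩ (g • x) + ℓ • x = 0) →
    rho g * rho g -
        toRatHecke N p (CuspForm.heckeAlgebra.T hℓ hℓN (Set.notMem_empty ℓ)) • rho g
      + (ℓ : RatHecke N p) • (1 : Matrix (Fin 2) (Fin 2) (RatHecke N p)) = 0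

/-- Every `p`-power torsion level is fixed by an open subgroup. -/
def TorsionFiniteLevel : Prop :=
  ∀ k : ℕ, ∃ L : IntermediateField ℚ (AlgebraicClosure ℚ), FiniteDimensional ℚ L ∧
    ∀ g : AlgebraicClosure ℚ ≃ₐ[ℚ] AlgebraicClosure ℚ, (∀ x ∈ L, g x = x) →
      ∀ x : ModularCurve.JZero N, p ^ k • x = 0 → g • x = x

end Fermat.Agent.GAL
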