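/-
The quadratic Frobenius relation and unramifiedness of the `p`-power torsion of `J₀(N)` from a
good-reduction specialisation.
-/
import Fermat.Prelude.Def_ModularCurve_HeckeModule

set_option autoImplicit false

open ModularCurve

namespace Fermat.Agent.GAL

variable (N p : ℕ) [NeZero N]

/-- Frobenius elements satisfy `σ² - T_ℓ σ + ℓ = 0` on the `p`-power torsion. -/
def TorsionQuadratic : Prop :=
  ∀ (ℓ : ℕ) (hℓ : ℓ.Prime), ¬ ℓ ∣ N * p → ∀ A : ValuationSubring (AlgebraicClosure ℚ),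
    A.LiesOverPrime ℓ → ∀ σ : AlgebraicClosure ℚ ≃ₐ[ℚ] AlgebraicClosure ℚ, A.IsFrobeniusAt σ ℓ →
      ∀ x : JZero N, (∃ n : ℕ, p ^ n • x = 0) →
        σ • σ • x - heckeOperatorBar N ⟨ℓ, hℓ⟩ (σ • x) + ℓ • x = 0

/-- Inertia fixes the `p`-power torsion at primes not dividing `Np`. -/
def TorsionUnramified : Prop :=
  ∀ q : ℕ, q.Prime → ¬ q ∣ N * p → ∀ A : ValuationSubring (AlgebraicClosure ℚ),
    A.LiesOverPrime q → ∀ σ ∈ A.inertiaSubgroupIn ℚ,
      ∀ x : JZero N, (∃ n : ℕ, p ^ n • x = 0) → σ • x = x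

theorem smul_isTorsion {σ : AlgebraicClosure ℚ ≃ₐ[ℚ] AlgebraicClosure ℚ} {x : JZero N} {n : ℕ}
    (hn : p ^ n • x = 0) : p ^ n • (σ • x) = 0 := by
  have h := map_nsmul (DistribSMul.toAddMonoidHom (JZero N) σ) (p ^ n) x
  rw [DistribSMul.toAddMonoidHom_apply, DistribSMul.toAddMonoidHom_apply, hn, smul_zero] at h
  exact h.symm

theorem torsion_properties_of_specializationExists (hcomm : HeckeOperatorsCommuteBar N)
    (hsc : letI := heckeModuleBar N
      SMulCommClass (AlgebraicClosure ℚ ≃ₐ[ℚ] AlgebraicClosure ℚ) HeckeAlg (JZero N))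
    (hspec : letI := heckeModuleBar N
      ∀ (_ : SMulCommClass (AlgebraicClosure ℚ ≃ₐ[ℚ] AlgebraicClosure ℚ) HeckeAlg (JZero N)),
        SpecializationExists (K := ℚ) (L := AlgebraicClosure ℚ) N p (JZero N)) :
    TorsionQuadratic N p ∧ TorsionUnramified N p := by
  letI := heckeModuleBar N
  haveI := hsc
  have hs := hspec hsc
  refine ⟨fun ℓ hℓ hℓNp A hA σ hσ x ⟨n, hn⟩ => ?_, fun q hq hqNp A hA σ hσ x ⟨n, hn⟩ => ?_⟩
  · obtain ⟨J', _, _, sp, F, hsp, hrel⟩ := hs ℓ hℓ hℓNp A hA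
    refine hsp.injective_torsion _ ⟨n, ?_⟩ ?_
    · rw [nsmul_add, nsmul_sub, ← map_nsmul, smul_isTorsion N p (smul_isTorsion N p hn),
        smul_isTorsion N p hn, map_zero, ← mul_nsmul, mul_comm, mul_nsmul, hn, nsmul_zero,
        sub_zero, add_zero]
    · rw [← heckeModuleBar_heckeGen_smul hcomm, map_add, map_sub, hsp.hecke_comm, map_nsmul,
        hsp.frobenius_comm σ hσ, hsp.frobenius_comm σ hσ]
      exact hrel (sp x)
  · obtain ⟨J', _, _, sp, F, hsp, -⟩ := hs q hq hqNp A hA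
    rw [← sub_eq_zero]
    refine hsp.injective_torsion _ ⟨n, ?_⟩ ?_
    · rw [nsmul_sub, smul_isTorsion N p hn, hn, sub_zero]
    · rw [map_sub, hsp.inertia_comm σ hσ, sub_self]

end Fermat.Agent.GAL
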