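/-
Extending points of Hecke algebras: `ℤ_[p] →+* O`, and extension of a homomorphism along a
finite ring extension after enlarging the discrete valuation ring.
-/
import Fermat.Agent.GAL.Interface
import Fermat.Prelude.Thm_IsLocalRing_isAdicComplete_of_module_finite
import Fermat.Prelude.Thm_Algebra_finite_maximalSpectrum_and_bijective_localization_of_module_finite
import Mathlib.Data.ZMod.QuotientRing
import Mathlib.FieldTheory.IsAlgClosed.AlgebraicClosure
import Mathlib.RingTheory.AdicCompletion.RingHom
import Mathlib.RingTheory.DedekindDomain.IntegralClosure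
import Mathlib.RingTheory.DiscreteValuationRing.TFAE
import Mathlib.RingTheory.Ideal.GoingUp
import Mathlib.RingTheory.Ideal.Quotient.Noetherian

set_option autoImplicit false

noncomputable section

namespace Fermat.Agent.GAL

/-- A ring of characteristic dividing `n` receives `ZMod n`. -/
def ofZMod {R : Type*} [CommRing R] (n : ℕ) (h : (n : R) = 0) : ZMod n →+* R :=
  (Ideal.Quotient.lift (Ideal.span {(n : ℤ)}) (Int.castRingHom R) (fun a ha => by
    obtain ⟨b, rfl⟩ := Ideal.mem_span_singleton'.mp ha
    simp [h])).comp (Int.quotientSpanNatEquivZMod n).symm.toRingHom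

/-- `ℤ_[p]` maps to every `I`-adically complete ring in which `p ∈ I`. -/
theorem exists_padicInt_hom {O : Type*} [CommRing O] {I : Ideal O} [IsAdicComplete I O] {p : ℕ}
    [Fact p.Prime] (hp : (p : O) ∈ I) : Nonempty (ℤ_[p] →+* O) := by
  have hn : ∀ n, (((p ^ n : ℕ) : O ⧸ I ^ n)) = 0 := fun n => by
    rw [← map_natCast (Ideal.Quotient.mk (I ^ n)), Ideal.Quotient.eq_zero_iff_mem, Nat.cast_pow]
    exact Ideal.pow_mem_pow hp n
  let f : (n : ℕ) → ℤ_[p] →+* O ⧸ I ^ n := fun n => (ofZMod (p ^ n) (hn n)).comp (PadicInt.toZModPow n)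
  refine ⟨IsAdicComplete.liftRingHom I f fun {m n} hle => ?_⟩
  show (Ideal.Quotient.factorPow I hle).comp ((ofZMod (p ^ n) (hn n)).comp (PadicInt.toZModPow n)) =
    (ofZMod (p ^ m) (hn m)).comp (PadicInt.toZModPow m)
  rw [← RingHom.comp_assoc, ← PadicInt.zmod_cast_comp_toZModPow m n hle, ← RingHom.comp_assoc]
  congr 1
  exact RingHom.ext_zmod _ _

/-- A domain which is finite over a complete local noetherian ring is local. -/
theorem isLocalRing_of_finite_of_isDomain {O : Type} [CommRing O] [IsLocalRing O]
    [IsNoetherianRing O] [IsAdicComplete (IsLocalRing.maximalIdeal O) O] (A : Type) [CommRing A]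
    [IsDomain A] [Algebra O A] [Module.Finite O A] : IsLocalRing A := by
  classical
  obtain ⟨hfin, hbij, -, -⟩ :=
    Algebra.finite_maximalSpectrum_and_bijective_localization_of_module_finite (𝒪 := O) A
  obtain ⟨I₀, hI₀⟩ := Ideal.exists_maximal A
  refine IsLocalRing.of_unique_max_ideal ⟨I₀, hI₀, fun J hJ => ?_⟩
  by_contra hne
  let i : MaximalSpectrum A := ⟨I₀, hI₀⟩
  let j : MaximalSpectrum A := ⟨J, hJ⟩
  have hij : j ≠ i := fun h => hne (congrArg MaximalSpectrum.asIdeal h)
  obtain ⟨e, he⟩ := hbij.2 (Pi.single i 1)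
  have hidem : e * e = e := by
    apply hbij.1
    rw [map_mul, he, ← Pi.single_mul, one_mul]
  rcases eq_or_ne e 0 with h0 | h0
  · subst h0
    rw [map_zero] at he
    have h := congrFun he i
    rw [Pi.single_eq_same] at h
    exact zero_ne_one h
  · have h1 : e = 1 := by
      rwa [mul_eq_left₀ h0] at hidem
    subst h1
    rw [map_one] at he
    have h := congrFun he j
    rw [Pi.single_eq_of_ne hij] at h
    exact one_ne_zero h

/-- **Extension of points.** A point of `A` extends to a finite extension `B` of `A` after a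
finite extension of the discrete valuation ring. -/
theorem exists_extension (O : Type) [CommRing O] [IsDomain O] [IsDiscreteValuationRing O]
    [IsAdicComplete (IsLocalRing.maximalIdeal O) O] [Finite (IsLocalRing.ResidueField O)]
    [CharZero O] {A B : Type} [CommRing A] [CommRing B] (ι : A →+* B)
    (hι : Function.Injective ι) [Module.Finite ℤ B] (χ : A →+* O) :
    ∃ (O' : Type) (_ : CommRing O') (_ : IsDomain O') (_ : IsDiscreteValuationRing O')
      (_ : IsAdicComplete (IsLocalRing.maximalIdeal O') O')
      (_ : Finite (IsLocalRing.ResidueField O')) (_ : CharZero O')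
      (_ : Algebra O O') (_ : Module.Finite O O') (_ : IsLocalHom (algebraMap O O'))
      (f : B →+* O'), Function.Injective (algebraMap O O') ∧
        ∀ a, f (ι a) = algebraMap O O' (χ a) := by
  classical
  letI : Algebra A B := ι.toAlgebra
  have hAB : Algebra.IsIntegral A B := ⟨fun b => by
    obtain ⟨P, hPm, hP⟩ := Algebra.IsIntegral.isIntegral (R := ℤ) b
    exact ⟨P.map (algebraMap ℤ A), hPm.map _, by
      rw [Polynomial.eval₂_map, RingHom.ext_int ((algebraMap A B).comp (algebraMap ℤ A))
        (algebraMap ℤ B)]; exact hP⟩⟩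
  set K := FractionRing O with hK
  set Kb := AlgebraicClosure K with hKb
  let j : A →+* Kb := ((algebraMap K Kb).comp (algebraMap O K)).comp χ
  set P := RingHom.ker j with hP
  haveI : P.IsPrime := RingHom.ker_isPrime j
  obtain ⟨Q, -, hQ, hQP⟩ := Ideal.exists_ideal_over_prime_of_isIntegral (S := B) P ⊥ (by
    rw [← RingHom.ker_eq_comap_bot, show algebraMap A B = ι from rfl,
      (RingHom.injective_iff_ker_eq_bot _).mp hι]
    exact bot_le)
  haveI := hQ
  -- `B / Q` is an integral extension of the domain `A / P`
  let jq : A ⧸ P →+* Kb := Ideal.Quotient.lift P j fun a ha => ha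
  have hjq : Function.Injective jq := RingHom.lift_injective_of_ker_le_ideal P (fun a ha => ha) le_rfl
  letI : Algebra (A ⧸ P) Kb := jq.toAlgebra
  let iq : A ⧸ P →+* B ⧸ Q := Ideal.quotientMap Q ι (by rw [← hQP]; exact le_rfl)
  have hiq : Function.Injective iq := Ideal.quotientMap_injective' (by rw [← hQP]; exact le_rfl)
  letI : Algebra (A ⧸ P) (B ⧸ Q) := iq.toAlgebra
  haveI : Algebra.IsIntegral (A ⧸ P) (B ⧸ Q) := ⟨fun x => by
    obtain ⟨b, rfl⟩ := Ideal.Quotient.mk_surjective x
    obtain ⟨F, hFm, hF⟩ := hAB.isIntegral b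
    refine ⟨F.map (Ideal.Quotient.mk P), hFm.map _, ?_⟩
    rw [Polynomial.eval₂_map,
      show (algebraMap (A ⧸ P) (B ⧸ Q)).comp (Ideal.Quotient.mk P) =
        (Ideal.Quotient.mk Q).comp (algebraMap A B) from rfl,
      ← Polynomial.hom_eval₂, hF, map_zero]⟩
  haveI : FaithfulSMul (A ⧸ P) (B ⧸ Q) := (faithfulSMul_iff_algebraMap_injective _ _).mpr hiq
  haveI : FaithfulSMul (A ⧸ P) Kb := (faithfulSMul_iff_algebraMap_injective _ _).mpr hjq
  let g₀ : B ⧸ Q →ₐ[A ⧸ P] Kb := IsAlgClosed.lift
  let g : B →+* Kb := g₀.toRingHom.comp (Ideal.Quotient.mk Q)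
  have hg : ∀ a, g (ι a) = j a := fun a => by
    show g₀ (Ideal.Quotient.mk Q (ι a)) = j a
    exact g₀.commutes (Ideal.Quotient.mk P a)
  -- the finite extension containing the values
  obtain ⟨s, hs⟩ := (Module.Finite.fg_top : (⊤ : Submodule ℤ B).FG)
  set E := IntermediateField.adjoin K (g '' (s : Set B)) with hE
  haveI : FiniteDimensional K E := by
    apply IntermediateField.finiteDimensional_adjoin
    exact fun x _ => (AlgebraicClosure.isAlgebraic K).isAlgebraic x |>.isIntegral
  have hgE : ∀ b, g b ∈ E := by
    intro b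
    have hb : b ∈ Submodule.span ℤ (s : Set B) := by rw [hs]; trivial
    induction hb using Submodule.span_induction with
    | mem x hx => exact IntermediateField.subset_adjoin _ _ ⟨x, hx, rfl⟩
    | zero => rw [map_zero]; exact zero_mem _
    | add x y _ _ hx hy => rw [map_add]; exact add_mem hx hy
    | smul a x _ hx => rw [map_zsmul]; exact zsmul_mem hx _
  let gE : B →+* E := g.codRestrict E hgE
  haveI : CharZero K := charZero_of_injective_algebraMap (IsFractionRing.injective O K)
  haveI : Algebra.IsSeparable K E := inferInstance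
  haveI : IsScalarTower O K E := inferInstance
  let O' := integralClosure O E
  haveI : Module.Finite O O' := IsIntegralClosure.finite O K E O'
  haveI : IsDedekindDomain O' := IsIntegralClosure.isDedekindDomain O K E O'
  haveI : IsFractionRing O' E := IsIntegralClosure.isFractionRing_of_finite_extension O K E O'
  have hOE : Function.Injective (algebraMap O E) := by
    rw [IsScalarTower.algebraMap_eq O K E]
    exact (algebraMap K E).injective.comp (IsFractionRing.injective O K)
  have hinj : Function.Injective (algebraMap O O') := fun x y hxy =>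
    hOE (congrArg Subtype.val hxy)
  haveI : FaithfulSMul O O' := (faithfulSMul_iff_algebraMap_injective _ _).mpr hinj
  haveI : IsLocalRing O' := isLocalRing_of_finite_of_isDomain (O := O) O'
  haveI : Algebra.IsIntegral O O' := Algebra.IsIntegral.of_finite O O'
  haveI hloc : IsLocalHom (algebraMap O O') :=
    RingHom.IsIntegral.isLocalHom (fun x => Algebra.IsIntegral.isIntegral x) hinj
  have hnf : ¬ IsField O' := fun h =>
    IsDiscreteValuationRing.not_isField O
      (isField_of_isIntegral_of_isField hinj h)
  haveI : IsDiscreteValuationRing O' :=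
    ((IsDiscreteValuationRing.TFAE O' hnf).out 0 2 :
      IsDiscreteValuationRing O' ↔ IsDedekindDomain O').mpr inferInstance
  haveI : IsAdicComplete (IsLocalRing.maximalIdeal O') O' :=
    IsLocalRing.isAdicComplete_of_module_finite (𝒪 := O)
  haveI : Module.Finite (IsLocalRing.ResidueField O) (IsLocalRing.ResidueField O') := inferInstance
  haveI : Finite (IsLocalRing.ResidueField O') :=
    Module.finite_of_finite (IsLocalRing.ResidueField O)
  haveI : CharZero O' := charZero_of_injective_algebraMap hinj
  have hint : ∀ b, gE b ∈ O' := fun b => by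
    have hb : IsIntegral ℤ (gE b) := map_isIntegral_int gE (Algebra.IsIntegral.isIntegral b)
    obtain ⟨F, hFm, hF⟩ := hb
    exact ⟨F.map (algebraMap ℤ O), hFm.map _, by
      rw [Polynomial.eval₂_map, RingHom.ext_int ((algebraMap O E).comp (algebraMap ℤ O))
        (algebraMap ℤ E)]; exact hF⟩
  refine ⟨O', inferInstance, inferInstance, inferInstance, inferInstance, inferInstance,
    inferInstance, inferInstance, inferInstance, inferInstance,
    gE.codRestrict O'.toSubring hint, hinj, fun a => ?_⟩
  apply Subtype.ext
  apply Subtype.ext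
  show g (ι a) = _
  rw [hg]
  rfl

end Fermat.Agent.GAL
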