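/-
The `p`-adic cyclotomic character as a monoid hom on `Gal(ℚ̄/ℚ)`, and its finite level.
-/
import Fermat.Agent.Galois.Cyclotomic

set_option autoImplicit false

noncomputable section

namespace Fermat.Agent.GAL

open Fermat.Agent.Galois (Qbar GalQ)

variable (p : ℕ) [Fact p.Prime]

/-- The `p`-adic cyclotomic character on `Gal(ℚ̄/ℚ)` with values in `ℤ_[p]`. -/
def cycQ : GalQ →* ℤ_[p] :=
  (Units.coeHom ℤ_[p]).comp
    ((cyclotomicCharacter Qbar p).comp (MulSemiringAction.toRingAut GalQ Qbar))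

theorem cycQ_frobenius {A : ValuationSubring Qbar} {ℓ : ℕ} (hA : A.LiesOverPrime ℓ)
    (hℓ : ℓ.Prime) {σ : GalQ} (h : A.IsFrobeniusAt σ ℓ) (hne : ℓ ≠ p) : cycQ p σ = ℓ :=
  Fermat.Agent.Galois.cyclotomicCharacter_frobenius hA hℓ h p hne

theorem cycQ_level (n : ℕ) : ∃ L : IntermediateField ℚ Qbar, FiniteDimensional ℚ L ∧
    ∀ σ : GalQ, (∀ x ∈ L, σ x = x) → ∃ y : ℤ_[p], cycQ p σ = 1 + (p : ℤ_[p]) ^ n * y := by
  haveI : ∀ i, HasEnoughRootsOfUnity Qbar (p ^ i) := fun i => inferInstance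
  rcases eq_or_ne n 0 with rfl | hn
  · exact ⟨⊥, inferInstance, fun σ _ => ⟨cycQ p σ - 1, by simp⟩⟩
  obtain ⟨ζ, hζ⟩ := HasEnoughRootsOfUnity.exists_primitiveRoot Qbar (p ^ n)
  refine ⟨IntermediateField.adjoin ℚ {ζ}, IntermediateField.adjoin.finiteDimensional
    ((hζ.isIntegral (Nat.pos_of_neZero _)).tower_top), fun σ hσ => ?_⟩
  have h1 : PadicInt.toZModPow n (cycQ p σ) = 1 := by
    show PadicInt.toZModPow n
      ((cyclotomicCharacter Qbar p (MulSemiringAction.toRingAut GalQ Qbar σ) : ℤ_[p]ˣ) : ℤ_[p]) = 1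
    rw [cyclotomicCharacter.toZModPow, eq_comm]
    apply modularCyclotomicCharacter.unique
    intro t ht
    obtain ⟨i, hi, rfl⟩ := (hζ.isUnit_unit NeZero.out).eq_pow_of_mem_rootsOfUnity ht
    rw [ZMod.val_one'', pow_one]
    · exact hσ _ (pow_mem (IntermediateField.mem_adjoin_simple_self ℚ ζ) _)
    · exact (one_lt_pow₀ (Fact.out (p := p.Prime)).one_lt hn).ne'
  have hmem : cycQ p σ - 1 ∈ RingHom.ker (PadicInt.toZModPow n : ℤ_[p] →+* ZMod (p ^ n)) := by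
    rw [RingHom.mem_ker, map_sub, h1, map_one, sub_self]
  rw [PadicInt.ker_toZModPow, Ideal.mem_span_singleton'] at hmem
  obtain ⟨y, hy⟩ := hmem
  exact ⟨y, by rw [mul_comm, hy, add_sub_cancel]⟩

end Fermat.Agent.GAL
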