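/-
Abstract linear algebra for two-dimensional representations satisfying a quadratic relation
`X² - c X + d = 0` elementwise: the determinant is `d` and the trace is forced.
-/
import Mathlib.LinearAlgebra.Matrix.Charpoly.Coeff
import Mathlib.LinearAlgebra.Matrix.Determinant.Basic
import Mathlib.RingTheory.Ideal.Maximal

set_option autoImplicit false

open Matrix Polynomial

namespace Fermat.Agent.GAL

variable {R : Type*} [CommRing R]

/-- `M` satisfies some relation `M² - c M + d = 0`. -/
def QuadRel (M : Matrix (Fin 2) (Fin 2) R) (d : R) : Prop :=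
  ∃ c : R, M * M - c • M + d • 1 = 0

/-- Cayley–Hamilton for `2 × 2` matrices. -/
theorem sq_sub_trace_smul_add_det (M : Matrix (Fin 2) (Fin 2) R) :
    M * M - M.trace • M + M.det • (1 : Matrix (Fin 2) (Fin 2) R) = 0 := by
  ext i j
  fin_cases i <;> fin_cases j <;>
    simp [Matrix.mul_apply, Fin.sum_univ_two, Matrix.trace_fin_two, Matrix.det_fin_two] <;> ring

/-- `M` is scalar modulo the ideal `I`. -/
def ScalarMod (I : Ideal R) (M : Matrix (Fin 2) (Fin 2) R) : Prop :=
  M 0 1 ∈ I ∧ M 1 0 ∈ I ∧ M 0 0 - M 1 1 ∈ I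

theorem ScalarMod.one (I : Ideal R) : ScalarMod I (1 : Matrix (Fin 2) (Fin 2) R) := by
  simp [ScalarMod]

theorem ScalarMod.mul {I : Ideal R} {A B : Matrix (Fin 2) (Fin 2) R}
    (hA : ScalarMod I A) (hB : ScalarMod I B) : ScalarMod I (A * B) := by
  obtain ⟨a1, a2, a3⟩ := hA
  obtain ⟨b1, b2, b3⟩ := hB
  refine ⟨?_, ?_, ?_⟩
  · simp only [Matrix.mul_apply, Fin.sum_univ_two]
    exact I.add_mem (I.mul_mem_left _ b1) (I.mul_mem_right _ a1)
  · simp only [Matrix.mul_apply, Fin.sum_univ_two]
    exact I.add_mem (I.mul_mem_right _ a2) (I.mul_mem_left _ b2)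
  · have : (A * B) 0 0 - (A * B) 1 1 = (A 0 0 - A 1 1) * B 0 0 + A 1 1 * (B 0 0 - B 1 1)
        + A 0 1 * B 1 0 - A 1 0 * B 0 1 := by
      simp only [Matrix.mul_apply, Fin.sum_univ_two]; ring
    rw [this]
    exact I.sub_mem (I.add_mem (I.add_mem (I.mul_mem_right _ a3) (I.mul_mem_left _ b3))
      (I.mul_mem_right _ a1)) (I.mul_mem_right _ a2)

theorem ScalarMod.of_mul_eq_one {I : Ideal R} {A B : Matrix (Fin 2) (Fin 2) R}
    (hA : ScalarMod I A) (h : A * B = 1) : ScalarMod I B := by
  obtain ⟨a1, a2, a3⟩ := hA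
  have hBA : B * A = 1 := mul_eq_one_comm.mp h
  have hu : A.det * B.det = 1 := by rw [← Matrix.det_mul, h, Matrix.det_one]
  have hB : B = B.det • A.adjugate := by
    calc B = B * ((B.det * A.det) • (1 : Matrix (Fin 2) (Fin 2) R)) := by
          rw [mul_comm, hu, one_smul, mul_one]
      _ = B.det • (B * (A * A.adjugate)) := by
          rw [Matrix.mul_adjugate, mul_smul, mul_smul_comm]
      _ = B.det • A.adjugate := by rw [← Matrix.mul_assoc, hBA, Matrix.one_mul]
  rw [Matrix.adjugate_fin_two] at hB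
  refine ⟨?_, ?_, ?_⟩ <;> rw [hB] <;>
    simp only [Matrix.smul_apply, smul_eq_mul, Matrix.of_apply, Matrix.cons_val', Matrix.cons_val_zero,
      Matrix.cons_val_one, Matrix.cons_val_fin_one, ← mul_sub]
  · exact I.mul_mem_left _ (I.neg_mem a1)
  · exact I.mul_mem_left _ (I.neg_mem a2)
  · refine I.mul_mem_left _ ?_
    rw [← neg_sub]; exact I.neg_mem a3

/-- If `M` is not scalar modulo the maximal ideal `P`, the relation determines `det M` at `P`. -/
theorem det_sub_mul_eq_zero_of_not_scalarMod {P : Ideal R} {M : Matrix (Fin 2) (Fin 2) R} {d : R}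
    (hM : QuadRel M d) (hns : ¬ ScalarMod P M) : ∃ s ∉ P, s * (M.det - d) = 0 := by
  obtain ⟨c, hc⟩ := hM
  have key : (M.trace - c) • M = (M.det - d) • (1 : Matrix (Fin 2) (Fin 2) R) := by
    have h2 := sq_sub_trace_smul_add_det M
    rw [← hc] at h2
    rw [sub_smul, sub_smul]
    linear_combination (norm := abel) -h2
  have e01 := congrFun (congrFun key 0) 1
  have e10 := congrFun (congrFun key 1) 0
  have e00 := congrFun (congrFun key 0) 0
  have e11 := congrFun (congrFun key 1) 1
  simp only [Matrix.smul_apply, smul_eq_mul, Matrix.one_apply_eq, ne_eq, one_ne_zero, zero_ne_one,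
    not_false_eq_true, Matrix.one_apply_ne, mul_one, mul_zero] at e01 e10 e00 e11
  simp only [ScalarMod, not_and_or] at hns
  rcases hns with h | h | h
  · exact ⟨_, h, by rw [← e00, ← mul_assoc, mul_comm (M 0 1), e01, zero_mul]⟩
  · exact ⟨_, h, by rw [← e00, ← mul_assoc, mul_comm (M 1 0), e10, zero_mul]⟩
  · refine ⟨_, h, ?_⟩
    rw [← e00, ← mul_assoc, mul_comm (M 0 0 - M 1 1), mul_sub, e00, e11, sub_self, zero_mul]

variable {G : Type*} [Group G]

/-- **Determinant trick.** A two-dimensional representation all of whose elements satisfy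
`X² - c X + d = 0` and which has an element that is scalar modulo no maximal ideal has
determinant `d`. -/
theorem det_eq_of_quadRel (ρ : G →* Matrix (Fin 2) (Fin 2) R) (d : G →* R)
    (hquad : ∀ g, QuadRel (ρ g) (d g))
    (hns : ∀ P : Ideal R, P.IsMaximal → ∃ g, ¬ ScalarMod P (ρ g)) (g : G) :
    (ρ g).det = d g := by
  rw [← sub_eq_zero]
  set x := (ρ g).det - d g with hx
  let J : Ideal R :=
    { carrier := {s | s * x = 0}
      add_mem' := fun {a b} ha hb => by
        simp only [Set.mem_setOf_eq] at ha hb ⊢; rw [add_mul, ha, hb, add_zero]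
      zero_mem' := by simp
      smul_mem' := fun a b hb => by
        simp only [Set.mem_setOf_eq, smul_eq_mul] at hb ⊢; rw [mul_assoc, hb, mul_zero] }
  have hJ : J = ⊤ := by
    by_contra hne
    obtain ⟨P, hP, hJP⟩ := Ideal.exists_le_maximal J hne
    obtain ⟨g₀, hg₀⟩ := hns P hP
    by_cases hg : ScalarMod P (ρ g)
    · have hgg : ¬ ScalarMod P (ρ (g * g₀)) := by
        intro h
        apply hg₀
        have hinv : ScalarMod P (ρ g⁻¹) :=
          hg.of_mul_eq_one (by rw [← map_mul, mul_inv_cancel, map_one])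
        have := hinv.mul h
        rwa [← map_mul, inv_mul_cancel_left] at this
      obtain ⟨s, hs, hs0⟩ := det_sub_mul_eq_zero_of_not_scalarMod (hquad g₀) hg₀
      obtain ⟨t, ht, ht0⟩ := det_sub_mul_eq_zero_of_not_scalarMod (hquad (g * g₀)) hgg
      have hu : d g₀ * d g₀⁻¹ = 1 := by rw [← map_mul, mul_inv_cancel, map_one]
      rw [map_mul, Matrix.det_mul, map_mul] at ht0
      have hmem : s * t ∈ J := by
        show s * t * x = 0
        linear_combination (d g₀⁻¹ * s) * ht0 + (-(d g₀⁻¹ * t * (ρ g).det)) * hs0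
          + (-(s * t * x)) * hu
      rcases hP.isPrime.mem_or_mem (hJP hmem) with h | h
      · exact hs h
      · exact ht h
    · obtain ⟨s, hs, hs0⟩ := det_sub_mul_eq_zero_of_not_scalarMod (hquad g) hg
      exact hs (hJP hs0)
  have h1 : (1 : R) ∈ J := by rw [hJ]; trivial
  simpa [J] using h1

/-- With the determinant known, a relation at an invertible matrix determines the trace. -/
theorem trace_eq_of_rel {M N : Matrix (Fin 2) (Fin 2) R} {c d : R} (hNM : N * M = 1)
    (hdet : M.det = d) (hc : M * M - c • M + d • 1 = 0) : M.trace = c := by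
  have h2 := sq_sub_trace_smul_add_det M
  rw [hdet, ← hc] at h2
  have key : (M.trace - c) • M = 0 := by
    rw [sub_smul]; linear_combination (norm := abel) -h2
  have := congrArg (N * ·) key
  simp only [mul_smul_comm, hNM, mul_zero] at this
  have h00 := congrFun (congrFun this 0) 0
  simp only [Matrix.smul_apply, Matrix.one_apply_eq, smul_eq_mul, mul_one, Matrix.zero_apply] at h00
  exact sub_eq_zero.mp h00

/-- An element `diag (1, -1)` is scalar modulo no maximal ideal when `2` is a unit. -/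
theorem not_scalarMod_diag (h2 : IsUnit (2 : R)) {P : Ideal R} (hP : P.IsMaximal) :
    ¬ ScalarMod P (Matrix.diagonal ![(1 : R), -1]) := by
  rintro ⟨-, -, h⟩
  have : (2 : R) ∈ P := by
    have e : (Matrix.diagonal ![(1 : R), -1]) 0 0 - (Matrix.diagonal ![(1 : R), -1]) 1 1 = 2 := by
      simp; norm_num
    rwa [e] at h
  exact hP.ne_top (Ideal.eq_top_of_isUnit_mem _ this h2)

/-- Characteristic polynomial from the quadratic relation. -/
theorem charpoly_eq_of_quadRel [Nontrivial R] (ρ : G →* Matrix (Fin 2) (Fin 2) R) (d : G →* R)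
    (hquad : ∀ g, QuadRel (ρ g) (d g))
    (hns : ∀ P : Ideal R, P.IsMaximal → ∃ g, ¬ ScalarMod P (ρ g))
    {g : G} {c : R} (hc : ρ g * ρ g - c • ρ g + d g • 1 = 0) :
    (ρ g).charpoly = X ^ 2 - C c * X + C (d g) := by
  have hdet := det_eq_of_quadRel ρ d hquad hns g
  have htr := trace_eq_of_rel (N := ρ g⁻¹) (by rw [← map_mul, inv_mul_cancel, map_one]) hdet hc
  rw [Matrix.charpoly_fin_two, htr, hdet]

/-- The Lucas sequence of `(c, d)`: `αⁿ + βⁿ` for the roots of `X² - cX + d`. -/
def powTrace (c d : R) : ℕ → R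
  | 0 => 2
  | 1 => c
  | n + 2 => c * powTrace c d (n + 1) - d * powTrace c d n

section Ring

variable {A : Type*} [Ring A] [Algebra R A]

/-- A quadratic relation is inherited by powers. -/
theorem pow_rel {X₀ : A} {c d : R} (h : X₀ * X₀ - c • X₀ + d • (1 : A) = 0) :
    ∀ n : ℕ, X₀ ^ n * X₀ ^ n - powTrace c d n • X₀ ^ n + d ^ n • (1 : A) = 0 := by
  intro n
  set f := (Polynomial.aeval (R := R) X₀) with hf
  have hdiv : ∀ n, (Polynomial.X ^ 2 - C c * Polynomial.X + C d) ∣
      ((Polynomial.X : R[X]) ^ n * Polynomial.X ^ n - C (powTrace c d n) * Polynomial.X ^ n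
        + C (d ^ n)) := by
    intro n
    induction n using Nat.twoStepInduction with
    | zero =>
      refine ⟨0, ?_⟩
      simp [powTrace, map_ofNat]; ring
    | one => refine ⟨1, ?_⟩; simp [powTrace]; ring
    | more n ih1 ih2 =>
      obtain ⟨a, ha⟩ := ih1
      obtain ⟨b, hb⟩ := ih2
      refine ⟨C c * Polynomial.X * b - C d * Polynomial.X ^ 2 * a
        + Polynomial.X ^ (2 * n + 2) + C (d ^ (n + 1)), ?_⟩
      simp only [powTrace, map_sub, map_mul, map_pow] at ha hb ⊢
      linear_combination (C c * Polynomial.X) * hb - (C d * Polynomial.X ^ 2) * ha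
  obtain ⟨q, hq⟩ := hdiv n
  have := congrArg f hq
  simp only [hf, map_sub, map_add, map_mul, map_pow, Polynomial.aeval_X, Polynomial.aeval_C] at this
  rw [Algebra.smul_def, Algebra.smul_def, mul_one, map_pow, this, sq, ← Algebra.smul_def c,
    show (algebraMap R A) d = d • (1 : A) by rw [Algebra.smul_def, mul_one], h, zero_mul]

end Ring

end Fermat.Agent.GAL
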