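/-
`ϖ`-adic congruences of `2 × 2` matrices over the fraction field of an integral domain, and
the closedness of the quadratic relation `X² - cX + d = 0`.
-/
import Fermat.Agent.GAL.TwoDimQuadratic
import Mathlib.RingTheory.Filtration
import Mathlib.RingTheory.LocalRing.MaximalIdeal.Basic
import Mathlib.RingTheory.Localization.FractionRing

set_option autoImplicit false

open Matrix

namespace Fermat.Agent.GAL

variable (O : Type*) [CommRing O] {E : Type*} [CommRing E] [Algebra O E]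

/-- All entries of `M` lie in `ϖ ^ n • O`. -/
def Near (ϖ : O) (n : ℕ) (M : Matrix (Fin 2) (Fin 2) E) : Prop :=
  ∀ i j, ∃ y : O, M i j = algebraMap O E (ϖ ^ n * y)

/-- All entries of `ϖ ^ m • M` lie in `O`. -/
def Bdd (ϖ : O) (m : ℕ) (M : Matrix (Fin 2) (Fin 2) E) : Prop :=
  ∀ i j, ∃ y : O, algebraMap O E (ϖ ^ m) * M i j = algebraMap O E y

/-- No nonzero element of `E` is infinitely divisible by `ϖ`. -/
def Separated (ϖ : O) (E : Type*) [CommRing E] [Algebra O E] : Prop :=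
  ∀ x : E, (∀ n, ∃ y : O, x = algebraMap O E (ϖ ^ n * y)) → x = 0

variable {O} {ϖ : O}

theorem separated_of_mem_maximalIdeal [IsDomain O] [IsNoetherianRing O] [IsLocalRing O]
    (hϖ : ϖ ∈ IsLocalRing.maximalIdeal O) (hinj : Function.Injective (algebraMap O E)) :
    Separated O ϖ E := by
  intro x hx
  obtain ⟨z, hz⟩ := hx 0
  rw [pow_zero, one_mul] at hz
  have hz0 : z ∈ (⨅ n : ℕ, IsLocalRing.maximalIdeal O ^ n : Ideal O) := by
    rw [Ideal.mem_iInf]
    intro n
    obtain ⟨y, hy⟩ := hx n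
    rw [hinj (hz.symm.trans hy)]
    exact Ideal.mul_mem_right _ _ (Ideal.pow_mem_pow hϖ n)
  rw [Ideal.iInf_pow_eq_bot_of_isLocalRing _ (IsLocalRing.maximalIdeal.isMaximal O).ne_top] at hz0
  rw [hz, Ideal.mem_bot.mp hz0, map_zero]

theorem Near.mono {M : Matrix (Fin 2) (Fin 2) E} {n k : ℕ} (h : Near O ϖ n M) (hk : k ≤ n) :
    Near O ϖ k M := by
  intro i j
  obtain ⟨y, hy⟩ := h i j
  exact ⟨ϖ ^ (n - k) * y, by rw [hy, ← mul_assoc, ← pow_add, Nat.add_sub_cancel' hk]⟩

theorem Near.add {M N : Matrix (Fin 2) (Fin 2) E} {n : ℕ} (hM : Near O ϖ n M) (hN : Near O ϖ n N) :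
    Near O ϖ n (M + N) := by
  intro i j
  obtain ⟨y, hy⟩ := hM i j
  obtain ⟨z, hz⟩ := hN i j
  exact ⟨y + z, by rw [Matrix.add_apply, hy, hz, ← map_add, mul_add]⟩

theorem Near.neg {M : Matrix (Fin 2) (Fin 2) E} {n : ℕ} (hM : Near O ϖ n M) : Near O ϖ n (-M) := by
  intro i j
  obtain ⟨y, hy⟩ := hM i j
  exact ⟨-y, by rw [Matrix.neg_apply, hy, ← map_neg, mul_neg]⟩

theorem Near.smul {M : Matrix (Fin 2) (Fin 2) E} {n : ℕ} (hM : Near O ϖ n M) (c : O) :
    Near O ϖ n (algebraMap O E c • M) := by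
  intro i j
  obtain ⟨y, hy⟩ := hM i j
  exact ⟨c * y, by rw [Matrix.smul_apply, smul_eq_mul, hy, ← map_mul, mul_left_comm]⟩

/-- Multiplying an element of `Near (n + m)` by a bounded matrix lands in `Near n`. -/
theorem Bdd.mul_near {M N : Matrix (Fin 2) (Fin 2) E} {n m : ℕ} (hM : Bdd O ϖ m M)
    (hN : Near O ϖ (n + m) N) : Near O ϖ n (M * N) := by
  intro i j
  choose a ha using hM i
  choose b hb using fun k => hN k j
  refine ⟨∑ k, a k * b k, ?_⟩
  rw [Matrix.mul_apply, Finset.mul_sum, map_sum]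
  refine Finset.sum_congr rfl fun k _ => ?_
  rw [hb k, map_mul, map_mul, map_mul, ← ha k, pow_add, map_mul]
  ring

/-- Multiplying an element of `Near (n + m)` on the right by a bounded matrix lands in `Near n`. -/
theorem Near.mul_bdd {M N : Matrix (Fin 2) (Fin 2) E} {n m : ℕ} (hN : Near O ϖ (n + m) N)
    (hM : Bdd O ϖ m M) : Near O ϖ n (N * M) := by
  intro i j
  choose a ha using fun k => hM k j
  choose b hb using hN i
  refine ⟨∑ k, b k * a k, ?_⟩
  rw [Matrix.mul_apply, Finset.mul_sum, map_sum]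
  refine Finset.sum_congr rfl fun k _ => ?_
  rw [hb k, map_mul, map_mul, map_mul, ← ha k, pow_add, map_mul]
  ring

/-- The quadratic relation is a closed condition. -/
theorem quadRel_of_near {M N : Matrix (Fin 2) (Fin 2) E} {d : E} {m : ℕ}
    (hsep : Separated O ϖ E) (hNM : N * M = 1) (hN : Bdd O ϖ m N)
    (happrox : ∀ n, ∃ c : E, Near O ϖ n (M * M - c • M + d • 1)) : QuadRel M d := by
  have hMN : M * N = 1 := mul_eq_one_comm.mp hNM
  set Y := M + d • N with hY
  have hYn : ∀ n, ∃ c : E, Near O ϖ n (Y - c • 1) := by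
    intro n
    obtain ⟨c, hc⟩ := happrox (n + m)
    refine ⟨c, ?_⟩
    have := hN.mul_near hc
    simpa only [mul_add, mul_sub, mul_smul_comm, ← Matrix.mul_assoc, hNM, Matrix.one_mul,
      Matrix.mul_one, hY, sub_add_eq_add_sub] using this
  have h01 : Y 0 1 = 0 := hsep _ fun n => by
    obtain ⟨c, hc⟩ := hYn n
    obtain ⟨y, hy⟩ := hc 0 1
    exact ⟨y, by simpa using hy⟩
  have h10 : Y 1 0 = 0 := hsep _ fun n => by
    obtain ⟨c, hc⟩ := hYn n
    obtain ⟨y, hy⟩ := hc 1 0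
    exact ⟨y, by simpa using hy⟩
  have hdiag : Y 0 0 - Y 1 1 = 0 := hsep _ fun n => by
    obtain ⟨c, hc⟩ := hYn n
    obtain ⟨y, hy⟩ := hc 0 0
    obtain ⟨z, hz⟩ := hc 1 1
    refine ⟨y - z, ?_⟩
    rw [mul_sub, map_sub, ← hy, ← hz]
    simp
  have hscalar : Y = Y 0 0 • (1 : Matrix (Fin 2) (Fin 2) E) := by
    ext i j
    fin_cases i <;> fin_cases j <;> simp [h01, h10, (sub_eq_zero.mp hdiag).symm]
  refine ⟨Y 0 0, ?_⟩
  have := congrArg (M * ·) hscalar
  simp only [hY, mul_add, mul_smul_comm, hMN, Matrix.mul_one] at this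
  rw [← hY] at this
  rw [sub_add_eq_add_sub, this, sub_self]

end Fermat.Agent.GAL
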