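/-
A bounded continuous representation `G_ℚ → GL₂(E)`, `E = Frac O`, has an invariant `O`-lattice.
-/
import Fermat.Agent.GAL.NearMod
import Fermat.Prelude.Def_GaloisRep_Adic
import Mathlib.LinearAlgebra.FreeModule.PID
import Mathlib.RingTheory.DiscreteValuationRing.Basic
import Mathlib.RingTheory.Localization.Module
import Mathlib.RingTheory.Finiteness.Lattice

set_option autoImplicit false

open Matrix

namespace Fermat.Agent.GAL

section Lattice

variable {O : Type*} [CommRing O] {E : Type*} [Field E] [Algebra O E]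

/-- The `O`-span of the columns of all `ρ g`. -/
def columnLattice {G : Type*} [Monoid G] (O : Type*) [CommRing O] [Algebra O E]
    (ρ : G →* Matrix (Fin 2) (Fin 2) E) : Submodule O (Fin 2 → E) :=
  Submodule.span O (Set.range fun p : G × Fin 2 => fun i => ρ p.1 i p.2)

variable {G : Type*} [Monoid G] {ρ : G →* Matrix (Fin 2) (Fin 2) E}

theorem mulVec_mem_columnLattice (g : G) {v : Fin 2 → E} (hv : v ∈ columnLattice O ρ) :
    ρ g *ᵥ v ∈ columnLattice O ρ := by
  induction hv using Submodule.span_induction with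
  | mem x hx =>
    obtain ⟨⟨h, j⟩, rfl⟩ := hx
    refine Submodule.subset_span ⟨(g * h, j), ?_⟩
    funext i
    simp only [map_mul, Matrix.mul_apply]
    rfl
  | zero => rw [Matrix.mulVec_zero]; exact Submodule.zero_mem _
  | add x y _ _ hx hy => rw [Matrix.mulVec_add]; exact Submodule.add_mem _ hx hy
  | smul a x _ hx => rw [Matrix.mulVec_smul]; exact Submodule.smul_mem _ a hx

theorem single_mem_columnLattice (j : Fin 2) :
    (Pi.single j (1 : E) : Fin 2 → E) ∈ columnLattice O ρ := by
  refine Submodule.subset_span ⟨(1, j), ?_⟩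
  funext i
  simp only [map_one, Matrix.one_apply, Pi.single_apply]

theorem integral_mem_columnLattice (y : Fin 2 → O) :
    (fun i => algebraMap O E (y i)) ∈ columnLattice O ρ := by
  have : (fun i => algebraMap O E (y i)) =
      y 0 • (Pi.single 0 (1 : E) : Fin 2 → E) + y 1 • (Pi.single 1 (1 : E) : Fin 2 → E) := by
    funext i
    fin_cases i <;> simp [Algebra.smul_def]
  rw [this]
  exact Submodule.add_mem _ (Submodule.smul_mem _ _ (single_mem_columnLattice 0))
    (Submodule.smul_mem _ _ (single_mem_columnLattice 1))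

theorem exists_integral_of_mem_columnLattice {ϖ : O} {m : ℕ} (hb : ∀ g, Bdd O ϖ m (ρ g))
    {v : Fin 2 → E} (hv : v ∈ columnLattice O ρ) :
    ∀ i, ∃ y : O, algebraMap O E (ϖ ^ m) * v i = algebraMap O E y := by
  induction hv using Submodule.span_induction with
  | mem x hx =>
    obtain ⟨⟨h, j⟩, rfl⟩ := hx
    exact fun i => hb h i j
  | zero => exact fun i => ⟨0, by simp⟩
  | add x y _ _ hx hy =>
    intro i
    obtain ⟨a, ha⟩ := hx i
    obtain ⟨b, hb'⟩ := hy i
    exact ⟨a + b, by rw [Pi.add_apply, mul_add, ha, hb', map_add]⟩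
  | smul a x _ hx =>
    intro i
    obtain ⟨c, hc⟩ := hx i
    exact ⟨a * c, by rw [Pi.smul_apply, Algebra.smul_def, mul_left_comm, hc, map_mul]⟩

theorem near_mulVec {ϖ : O} {m n : ℕ} {D : Matrix (Fin 2) (Fin 2) E} (hD : Near O ϖ (n + m) D)
    {v : Fin 2 → E} (hv : ∀ i, ∃ y : O, algebraMap O E (ϖ ^ m) * v i = algebraMap O E y) :
    ∃ y : Fin 2 → O, D *ᵥ v = ϖ ^ n • fun i => algebraMap O E (y i) := by
  choose a ha using hv
  choose b hb using hD
  refine ⟨fun i => ∑ k, b i k * a k, ?_⟩
  funext i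
  simp only [Matrix.mulVec, dotProduct, Pi.smul_apply, Algebra.smul_def, map_sum, Finset.mul_sum]
  refine Finset.sum_congr rfl fun k _ => ?_
  rw [hb i k, map_mul, map_mul, ← ha k, pow_add, map_mul]
  ring

end Lattice

/-- **Stable lattice.** -/
theorem exists_galoisRepAdic {O : Type} [CommRing O] [IsDomain O] [IsDiscreteValuationRing O]
    {E : Type} [Field E] [Algebra O E] [IsFractionRing O E]
    (ρ : (AlgebraicClosure ℚ ≃ₐ[ℚ] AlgebraicClosure ℚ) →* Matrix (Fin 2) (Fin 2) E)
    {ϖ : O} (hϖ : ϖ ∈ IsLocalRing.maximalIdeal O) (hϖ0 : ϖ ≠ 0) {m : ℕ}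
    (hb : ∀ g, Bdd O ϖ m (ρ g))
    (hcont : ∀ n, ∃ L : IntermediateField ℚ (AlgebraicClosure ℚ), FiniteDimensional ℚ L ∧
      ∀ σ : AlgebraicClosure ℚ ≃ₐ[ℚ] AlgebraicClosure ℚ, (∀ x ∈ L, σ x = x) →
        Near O ϖ n (ρ σ - 1)) :
    ∃ r : GaloisRepAdic O, (∀ g, (r.ρ g).charpoly.map (algebraMap O E) = (ρ g).charpoly) ∧
      ∀ g, ρ g = 1 → r.ρ g = 1 := by
  classical
  have hu : algebraMap O E (ϖ ^ m) ≠ 0 := by
    rw [map_ne_zero_iff _ (IsFractionRing.injective O E)]
    exact pow_ne_zero _ hϖ0
  -- the lattice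
  set L := columnLattice O ρ with hL
  set c : E := (algebraMap O E (ϖ ^ m))⁻¹ with hc
  have hle : L ≤ Submodule.span O
      ({Pi.single 0 c, Pi.single 1 c} : Set (Fin 2 → E)) := by
    intro v hv
    have h := exists_integral_of_mem_columnLattice hb hv
    choose y hy using h
    rw [Submodule.mem_span_pair]
    refine ⟨y 0, y 1, ?_⟩
    funext i
    have hy' : ∀ k, algebraMap O E (y k) * c = v k := fun k => by
      rw [← hy k, hc, mul_comm (algebraMap O E (ϖ ^ m)), mul_assoc, mul_inv_cancel₀ hu, mul_one]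
    fin_cases i
    · simp only [Fin.zero_eta, Pi.add_apply, Pi.smul_apply, Pi.single_eq_same,
        Pi.single_eq_of_ne (show (0 : Fin 2) ≠ 1 by decide), smul_zero, add_zero,
        ← algebraMap_smul E (y 0), smul_eq_mul, hy']
    · simp only [Fin.mk_one, Pi.add_apply, Pi.smul_apply, Pi.single_eq_same,
        Pi.single_eq_of_ne (show (1 : Fin 2) ≠ 0 by decide), smul_zero, zero_add,
        ← algebraMap_smul E (y 1), smul_eq_mul, hy']
  haveI : Module.Finite O (Submodule.span O ({Pi.single 0 c, Pi.single 1 c} : Set (Fin 2 → E))) :=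
    Module.Finite.span_of_finite O (Set.toFinite _)
  haveI hfin : Module.Finite O L :=
    Module.Finite.of_injective (Submodule.inclusion hle) (Submodule.inclusion_injective hle)
  haveI : NoZeroSMulDivisors O L := by
    refine ⟨fun {a x} h => ?_⟩
    by_contra hne
    push Not at hne
    have hx : (algebraMap O E a) • (x : Fin 2 → E) = 0 := by
      rw [algebraMap_smul, ← Submodule.coe_smul, h, Submodule.coe_zero]
    rcases smul_eq_zero.mp hx with h' | h'
    · exact hne.1 ((map_eq_zero_iff _ (IsFractionRing.injective O E)).mp h')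
    · exact hne.2 (Subtype.ext h')
  haveI : Module.IsTorsionFree O L := inferInstance
  haveI hfree : Module.Free O L := inferInstance
  let ι := Module.Free.ChooseBasisIndex O L
  let b : Module.Basis ι O L := Module.Free.chooseBasis O L
  have hli : LinearIndependent E (fun i => (b i : Fin 2 → E)) :=
    (LinearIndependent.iff_fractionRing O E).mp
      (b.linearIndependent.map' L.subtype (Submodule.ker_subtype L))
  have hsp : ⊤ ≤ Submodule.span E (Set.range fun i => (b i : Fin 2 → E)) := by
    intro v _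
    have hstd : ∀ j, (Pi.single j (1 : E) : Fin 2 → E) ∈
        Submodule.span E (Set.range fun i => (b i : Fin 2 → E)) := by
      intro j
      have h1 : (Pi.single j (1 : E) : Fin 2 → E) =
          ∑ i, algebraMap O E (b.repr ⟨_, single_mem_columnLattice j⟩ i) • (b i : Fin 2 → E) := by
        conv_lhs => rw [show (Pi.single j (1 : E) : Fin 2 → E) =
          ((⟨_, single_mem_columnLattice j⟩ : L) : Fin 2 → E) from rfl,
          ← b.sum_repr ⟨_, single_mem_columnLattice j⟩]
        simp only [AddSubmonoidClass.coe_finsetSum, Submodule.coe_smul, algebraMap_smul]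
      rw [h1]
      exact Submodule.sum_mem _ fun i _ =>
        Submodule.smul_mem _ _ (Submodule.subset_span ⟨i, rfl⟩)
    have hv : v = v 0 • (Pi.single 0 (1 : E) : Fin 2 → E) + v 1 • Pi.single 1 1 := by
      funext i
      fin_cases i <;> simp
    rw [hv]
    exact Submodule.add_mem _ (Submodule.smul_mem _ _ (hstd 0)) (Submodule.smul_mem _ _ (hstd 1))
  let b' : Module.Basis ι E (Fin 2 → E) := Module.Basis.mk hli hsp
  have hcard : Fintype.card ι = 2 := by
    have := Module.finrank_eq_card_basis b'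
    rw [Module.finrank_fin_fun] at this
    exact this.symm
  have hrank : Module.finrank O L = 2 := by rw [Module.finrank_eq_card_basis b, hcard]
  -- the action
  let f : (AlgebraicClosure ℚ ≃ₐ[ℚ] AlgebraicClosure ℚ) → Module.End O L := fun g =>
    { toFun := fun v => ⟨ρ g *ᵥ (v : Fin 2 → E), mulVec_mem_columnLattice g v.2⟩
      map_add' := fun v w => Subtype.ext (by
        show ρ g *ᵥ ((v : Fin 2 → E) + w) = ρ g *ᵥ (v : Fin 2 → E) + ρ g *ᵥ (w : Fin 2 → E)
        exact Matrix.mulVec_add _ _ _)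
      map_smul' := fun a v => Subtype.ext (by
        show ρ g *ᵥ (a • (v : Fin 2 → E)) = a • (ρ g *ᵥ (v : Fin 2 → E))
        exact Matrix.mulVec_smul _ _ _) }
  have hf1 : f 1 = 1 := by
    ext v : 1
    apply Subtype.ext
    show ρ 1 *ᵥ (v : Fin 2 → E) = v
    rw [map_one, Matrix.one_mulVec]
  let rep : (AlgebraicClosure ℚ ≃ₐ[ℚ] AlgebraicClosure ℚ) →* Module.End O L :=
    { toFun := f
      map_one' := hf1
      map_mul' := fun g h => by
        ext v : 1
        apply Subtype.ext
        show ρ (g * h) *ᵥ (v : Fin 2 → E) = ρ g *ᵥ (ρ h *ᵥ (v : Fin 2 → E))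
        rw [map_mul, Matrix.mulVec_mulVec] }
  have hrep : GaloisActionIsAdicContinuous O rep := by
    intro n
    obtain ⟨L', hL'fd, hL'⟩ := hcont (n + m)
    refine ⟨L', hL'fd, fun σ hσ v => ?_⟩
    obtain ⟨y, hy⟩ := near_mulVec (hL' σ hσ) (exists_integral_of_mem_columnLattice hb v.2)
    have : rep σ v - v = ϖ ^ n • (⟨_, integral_mem_columnLattice y⟩ : L) := by
      apply Subtype.ext
      show ρ σ *ᵥ (v : Fin 2 → E) - v = _
      rw [Submodule.coe_smul, ← hy, Matrix.sub_mulVec, Matrix.one_mulVec]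
    rw [this]
    exact Submodule.smul_mem_smul (Ideal.pow_mem_pow hϖ n) Submodule.mem_top
  refine ⟨{ V := L, finrank_eq := hrank, ρ := rep, isAdicContinuous := hrep }, ?_, ?_⟩
  · intro g
    show (rep g).charpoly.map (algebraMap O E) = (ρ g).charpoly
    have hM : (LinearMap.toMatrix b b (rep g)).map (algebraMap O E) =
        LinearMap.toMatrix b' b' (Matrix.mulVecLin (ρ g)) := by
      have hb' : ∀ i, b' i = (b i : Fin 2 → E) := fun i => by simp [b', Module.Basis.mk_apply]
      ext i j
      rw [Matrix.map_apply, LinearMap.toMatrix_apply, LinearMap.toMatrix_apply, hb',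
        Matrix.mulVecLin_apply]
      have hexp : ρ g *ᵥ (b j : Fin 2 → E) =
          ∑ k, algebraMap O E (b.repr (rep g (b j)) k) • b' k := by
        rw [show ρ g *ᵥ (b j : Fin 2 → E) = ((rep g (b j) : L) : Fin 2 → E) from rfl]
        conv_lhs => rw [← b.sum_repr (rep g (b j))]
        simp only [AddSubmonoidClass.coe_finsetSum, Submodule.coe_smul, algebraMap_smul, hb']
      rw [hexp, b'.repr_sum_self]
    rw [← LinearMap.charpoly_toMatrix (rep g) b, ← Matrix.charpoly_map, hM,
      LinearMap.charpoly_toMatrix, ← LinearMap.charpoly_toMatrix _ (Pi.basisFun E (Fin 2))]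
    congr 1
    rw [LinearMap.toMatrix_eq_toMatrix', ← Matrix.toLin'_apply', LinearMap.toMatrix'_toLin']
  · intro g hg
    show rep g = 1
    ext v : 1
    apply Subtype.ext
    show ρ g *ᵥ (v : Fin 2 → E) = v
    rw [hg, Matrix.one_mulVec]

end Fermat.Agent.GAL
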