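/-
From a bounded continuous representation `G_ℚ → GL₂(Frac O)` satisfying the Frobenius quadratic
relations to a Galois representation on an `O`-lattice with the expected characteristic polynomials.
-/
import Fermat.Agent.GAL.LatticeRep
import Fermat.Agent.GAL.Cyclo
import Fermat.Agent.Density.Qbar

set_option autoImplicit false

open Matrix Polynomial

namespace Fermat.Agent.GAL

variable {O E : Type} [CommRing O] [Field E] [Algebra O E]

/-- Frobenius density at the `ℚ`-algebra structure used by the Galois representation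
definitions. -/
theorem exists_frobenius_pow_on (L : IntermediateField ℚ (AlgebraicClosure ℚ))
    (hL : FiniteDimensional ℚ L) (g : AlgebraicClosure ℚ ≃ₐ[ℚ] AlgebraicClosure ℚ) (S : Finset ℕ) :
    ∃ ℓ : ℕ, ℓ.Prime ∧ ℓ ∉ S ∧ ∃ A : ValuationSubring (AlgebraicClosure ℚ), A.LiesOverPrime ℓ ∧
      ∃ σ : AlgebraicClosure ℚ ≃ₐ[ℚ] AlgebraicClosure ℚ, A.IsFrobeniusAt σ ℓ ∧
        ∃ k : ℕ, ∀ x ∈ L, (σ ^ k) x = g x :=
  @Fermat.Agent.Density.exists_frobenius_pow_eq L hL g S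

theorem map_powTrace {R S : Type*} [CommRing R] [CommRing S] (f : R →+* S) (c d : R) :
    ∀ n, f (powTrace c d n) = powTrace (f c) (f d) n := by
  intro n
  induction n using Nat.twoStepInduction with
  | zero => simp only [powTrace, map_ofNat]
  | one => simp only [powTrace]
  | more i ih1 ih2 => simp only [powTrace, map_sub, map_mul, ih1, ih2]

section Approx

variable {p : ℕ} [Fact p.Prime]
  (ρ : (AlgebraicClosure ℚ ≃ₐ[ℚ] AlgebraicClosure ℚ) →* Matrix (Fin 2) (Fin 2) E)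
  (ζ : ℤ_[p] →+* O)

/-- The determinant character with values in `E`. -/
noncomputable def detChar (E : Type) [Field E] [Algebra O E] :
    (AlgebraicClosure ℚ ≃ₐ[ℚ] AlgebraicClosure ℚ) →* E :=
  ((algebraMap O E).comp ζ).toMonoidHom.comp (cycQ p)

theorem detChar_apply (g : AlgebraicClosure ℚ ≃ₐ[ℚ] AlgebraicClosure ℚ) :
    detChar ζ E g = algebraMap O E (ζ (cycQ p g)) := rfl

theorem detChar_near (n : ℕ) : ∃ L : IntermediateField ℚ (AlgebraicClosure ℚ),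
    FiniteDimensional ℚ L ∧ ∀ g h : AlgebraicClosure ℚ ≃ₐ[ℚ] AlgebraicClosure ℚ,
      (∀ x ∈ L, h x = x) →
        ∃ y : O, detChar ζ E (g * h) - detChar ζ E g = algebraMap O E ((p : O) ^ n * y) := by
  obtain ⟨L, hL, hσ⟩ := cycQ_level p n
  refine ⟨L, hL, fun g h hh => ?_⟩
  obtain ⟨y, hy⟩ := hσ h hh
  refine ⟨ζ (cycQ p g) * ζ y, ?_⟩
  rw [detChar_apply, detChar_apply, map_mul, hy, ← map_sub, mul_add, mul_one, map_add,
    add_sub_cancel_left, ← map_mul, mul_left_comm, map_mul ζ, map_pow ζ, map_natCast ζ]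

/-- The quadratic relation extends from Frobenius elements to the whole Galois group. -/
theorem quadRel_of_frobenius {m : ℕ} (hsep : Separated O (p : O) E)
    (hb : ∀ g, Bdd O (p : O) m (ρ g))
    (hcont : ∀ n, ∃ L : IntermediateField ℚ (AlgebraicClosure ℚ), FiniteDimensional ℚ L ∧
      ∀ σ : AlgebraicClosure ℚ ≃ₐ[ℚ] AlgebraicClosure ℚ, (∀ x ∈ L, σ x = x) →
        Near O (p : O) n (ρ σ - 1))
    (S : Finset ℕ) (hpS : p ∈ S)
    (hFrob : ∀ ℓ : ℕ, ℓ.Prime → ℓ ∉ S → ∀ A : ValuationSubring (AlgebraicClosure ℚ),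
      A.LiesOverPrime ℓ → ∀ σ : AlgebraicClosure ℚ ≃ₐ[ℚ] AlgebraicClosure ℚ,
        A.IsFrobeniusAt σ ℓ →
          ∃ c : O, ρ σ * ρ σ - algebraMap O E c • ρ σ + (ℓ : E) • 1 = 0)
    (g : AlgebraicClosure ℚ ≃ₐ[ℚ] AlgebraicClosure ℚ) :
    QuadRel (ρ g) (detChar ζ E g) := by
  refine quadRel_of_near hsep (N := ρ g⁻¹)
    (by rw [← map_mul, inv_mul_cancel, map_one]) (hb g⁻¹) fun n => ?_
  obtain ⟨L₁, hL₁, h₁⟩ := hcont (n + m + m)
  obtain ⟨L₂, hL₂, h₂⟩ := detChar_near (E := E) ζ n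
  haveI := hL₁
  haveI := hL₂
  obtain ⟨ℓ, hℓ, hℓS, A, hA, σ, hσ, k, hk⟩ :=
    exists_frobenius_pow_on (L₁ ⊔ L₂) (IntermediateField.finiteDimensional_sup L₁ L₂) g S
  obtain ⟨c₀, hc₀⟩ := hFrob ℓ hℓ hℓS A hA σ hσ
  set h := (σ ^ k)⁻¹ * g with hh
  have hfix : ∀ x ∈ L₁ ⊔ L₂, h x = x := by
    intro x hx
    rw [hh, AlgEquiv.mul_apply, ← hk x hx, ← AlgEquiv.mul_apply, inv_mul_cancel, AlgEquiv.one_apply]
  have hg : σ ^ k * h = g := mul_inv_cancel_left _ _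
  have hdσ : detChar ζ E σ = (ℓ : E) := by
    rw [detChar_apply, cycQ_frobenius p hA hℓ hσ (fun e => hℓS (e ▸ hpS)), map_natCast, map_natCast]
  have hpow := pow_rel (X₀ := ρ σ) (c := algebraMap O E c₀) (d := (ℓ : E)) hc₀ k
  rw [← map_pow ρ σ k, ← hdσ, ← map_pow (detChar ζ E) σ k] at hpow
  obtain ⟨y, hy⟩ : ∃ y : O, powTrace (algebraMap O E c₀) (detChar ζ E σ) k = algebraMap O E y := by
    refine ⟨powTrace c₀ ((ℓ : O)) k, ?_⟩
    rw [hdσ, map_powTrace, map_natCast]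
  rw [hy] at hpow
  refine ⟨algebraMap O E y, ?_⟩
  set P := ρ (σ ^ k) with hP
  set M := ρ g with hM
  have hMP : Near O (p : O) (n + m) (M - P) := by
    have := (hb (σ ^ k)).mul_near (h₁ h fun x hx => hfix x (le_sup_left (a := L₁) (b := L₂) hx))
    rwa [mul_sub, mul_one, ← map_mul, hg] at this
  obtain ⟨z, hz⟩ := h₂ (σ ^ k) h fun x hx => hfix x (le_sup_right (a := L₁) (b := L₂) hx)
  rw [hg] at hz
  have hdiff : Near O (p : O) n
      ((detChar ζ E g - detChar ζ E (σ ^ k)) • (1 : Matrix (Fin 2) (Fin 2) E)) := by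
    intro i j
    rw [hz, Matrix.smul_apply, Matrix.one_apply, smul_eq_mul]
    split_ifs
    · exact ⟨z, by rw [mul_one]⟩
    · exact ⟨0, by rw [mul_zero, mul_zero, map_zero]⟩
  have key : M * M - algebraMap O E y • M + detChar ζ E g • 1 =
      (M - P) * M + P * (M - P) + -(algebraMap O E y • (M - P))
        + (detChar ζ E g - detChar ζ E (σ ^ k)) • 1 := by
    rw [sub_mul, mul_sub, smul_sub, sub_smul]
    linear_combination (norm := abel) hpow
  rw [key]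
  exact (((hMP.mul_bdd (hb g)).add ((hb (σ ^ k)).mul_near hMP)).add
    ((hMP.mono (Nat.le_add_right n m)).smul y).neg).add hdiff

/-- **Core of S30.** -/
theorem exists_galoisRep_of_rep [IsDomain O] [IsDiscreteValuationRing O] [IsFractionRing O E]
    [CharZero O] (hp : (p : O) ∈ IsLocalRing.maximalIdeal O) {m : ℕ}
    (hb : ∀ g, Bdd O (p : O) m (ρ g))
    (hcont : ∀ n, ∃ L : IntermediateField ℚ (AlgebraicClosure ℚ), FiniteDimensional ℚ L ∧
      ∀ σ : AlgebraicClosure ℚ ≃ₐ[ℚ] AlgebraicClosure ℚ, (∀ x ∈ L, σ x = x) →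
        Near O (p : O) n (ρ σ - 1))
    (hns : ∃ g₀, ρ g₀ = Matrix.diagonal ![(1 : E), -1])
    (S : Finset ℕ) (hpS : p ∈ S) (T : ℕ → O)
    (hFrob : ∀ ℓ : ℕ, ℓ.Prime → ℓ ∉ S → ∀ A : ValuationSubring (AlgebraicClosure ℚ),
      A.LiesOverPrime ℓ → ∀ σ : AlgebraicClosure ℚ ≃ₐ[ℚ] AlgebraicClosure ℚ,
        A.IsFrobeniusAt σ ℓ →
          ρ σ * ρ σ - algebraMap O E (T ℓ) • ρ σ + (ℓ : E) • 1 = 0)
    (ζ : ℤ_[p] →+* O) :
    ∃ r : GaloisRepAdic O,
      (∀ ℓ : ℕ, ℓ.Prime → ℓ ∉ S → ∀ A : ValuationSubring (AlgebraicClosure ℚ),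
        A.LiesOverPrime ℓ → ∀ σ : AlgebraicClosure ℚ ≃ₐ[ℚ] AlgebraicClosure ℚ,
          A.IsFrobeniusAt σ ℓ →
            LinearMap.charpoly (r.ρ σ) = X ^ 2 - C (T ℓ) * X + C (ℓ : O)) ∧
      ∀ g, ρ g = 1 → r.ρ g = 1 := by
  have hinj := IsFractionRing.injective O E
  haveI : CharZero E := charZero_of_injective_algebraMap hinj
  have hp0 : (p : O) ≠ 0 := Nat.cast_ne_zero.mpr (Fact.out (p := p.Prime)).ne_zero
  have hquad : ∀ g, QuadRel (ρ g) (detChar ζ E g) :=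
    quadRel_of_frobenius ρ ζ (separated_of_mem_maximalIdeal hp hinj) hb hcont S hpS
      fun ℓ hℓ hℓS A hA σ hσ => ⟨T ℓ, hFrob ℓ hℓ hℓS A hA σ hσ⟩
  have hns' : ∀ P : Ideal E, P.IsMaximal → ∃ g, ¬ ScalarMod P (ρ g) := by
    obtain ⟨g₀, hg₀⟩ := hns
    exact fun P hP => ⟨g₀, by
      rw [hg₀]; exact not_scalarMod_diag (isUnit_iff_ne_zero.mpr two_ne_zero) hP⟩
  obtain ⟨r, hr, hr1⟩ := exists_galoisRepAdic ρ hp hp0 hb hcont
  refine ⟨r, fun ℓ hℓ hℓS A hA σ hσ => ?_, hr1⟩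
  have hdσ : detChar ζ E σ = (ℓ : E) := by
    rw [detChar_apply, cycQ_frobenius p hA hℓ hσ (fun e => hℓS (e ▸ hpS)), map_natCast, map_natCast]
  apply Polynomial.map_injective (algebraMap O E) hinj
  rw [hr σ, charpoly_eq_of_quadRel ρ (detChar ζ E) hquad hns'
    (g := σ) (c := algebraMap O E (T ℓ)) (by rw [hdσ]; exact hFrob ℓ hℓ hℓS A hA σ hσ), hdσ]
  simp only [Polynomial.map_add, Polynomial.map_sub, Polynomial.map_mul, Polynomial.map_pow,
    Polynomial.map_X, Polynomial.map_C, Polynomial.map_natCast, map_natCast]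

end Approx

end Fermat.Agent.GAL
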