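/-
Galois representations attached to points of the Hecke algebra, from the Tate module package.
-/
import Fermat.Agent.GAL.PointExtend
import Fermat.Agent.GAL.SpecialRep
import Fermat.Agent.GAL.FromSpecialization
import Fermat.Prelude.Def_CuspForm_HeckeGaloisRepDatum

set_option autoImplicit false

open scoped TensorProduct
open Polynomial

noncomputable section

namespace Fermat.Agent.GAL

variable {N : ℕ} [NeZero N] {p : ℕ} [Fact p.Prime]

section Specialise

variable {O : Type} [CommRing O] [IsDomain O] [CharZero O] {E : Type} [Field E] [Algebra O E]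
  [IsFractionRing O E]

theorem padicInt_hom_injective (ζ : ℤ_[p] →+* O) : Function.Injective ζ := by
  rw [injective_iff_map_eq_zero]
  intro x hx
  by_contra h
  have h2 := congrArg ζ (PadicInt.unitCoeff_spec h)
  rw [map_mul, hx, map_pow, map_natCast] at h2
  rcases mul_eq_zero.mp h2.symm with h3 | h3
  · exact ((PadicInt.unitCoeff h).isUnit.map ζ).ne_zero h3
  · exact (Fact.out (p := p.Prime)).ne_zero (Nat.cast_eq_zero.mp (eq_zero_of_pow_eq_zero h3))

/-- Specialisation of `ℚ_[p] ⊗ 𝕋` at a point with values in `O`. -/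
def specialise (ζ : ℤ_[p] →+* O) (f : HeckeT N →+* O) : RatHecke N p →+* E :=
  (Algebra.TensorProduct.lift
    (IsFractionRing.lift (K := ℚ_[p]) (g := (algebraMap O E).comp ζ)
      ((IsFractionRing.injective O E).comp (padicInt_hom_injective ζ))).toIntAlgHom
    (((algebraMap O E).comp f).toIntAlgHom) fun _ _ => Commute.all _ _).toRingHom

theorem specialise_toRatHecke (ζ : ℤ_[p] →+* O) (f : HeckeT N →+* O) (t : HeckeT N) :
    specialise (E := E) ζ f (toRatHecke N p t) = algebraMap O E (f t) := by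
  simp [specialise, toRatHecke]

theorem specialise_intHecke (ζ : ℤ_[p] →+* O) (f : HeckeT N →+* O) {y : RatHecke N p}
    (hy : y ∈ intHecke N p) : ∃ a : O, specialise (E := E) ζ f y = algebraMap O E a := by
  obtain ⟨z, rfl⟩ := hy
  induction z using TensorProduct.induction_on with
  | zero => exact ⟨0, by simp⟩
  | tmul a t =>
    refine ⟨ζ a * f t, ?_⟩
    have hl : IsFractionRing.lift (K := ℚ_[p]) (g := (algebraMap O E).comp ζ)
        ((IsFractionRing.injective O E).comp (padicInt_hom_injective ζ)) (a : ℚ_[p]) =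
        algebraMap O E (ζ a) := by
      rw [show (a : ℚ_[p]) = algebraMap ℤ_[p] ℚ_[p] a from rfl, IsFractionRing.lift_algebraMap]
      rfl
    simp only [AlgHom.toRingHom_eq_coe, RingHom.coe_coe, Algebra.TensorProduct.map_tmul,
      AlgHom.id_apply, map_mul]
    rw [← hl]
    simp [specialise]
  | add x y hx hy =>
    obtain ⟨a, ha⟩ := hx
    obtain ⟨b, hb⟩ := hy
    exact ⟨a + b, by rw [map_add, map_add, ha, hb, map_add]⟩

theorem rep_near_one {D : TateRep N p} (ζ : ℤ_[p] →+* O) (f : HeckeT N →+* O) (n : ℕ) :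
    ∃ k : ℕ, ∀ g : AlgebraicClosure ℚ ≃ₐ[ℚ] AlgebraicClosure ℚ,
      (∀ x : ModularCurve.JZero N, p ^ k • x = 0 → g • x = x) →
        Near O (p : O) n ((specialise (E := E) ζ f).mapMatrix (D.rho g) - 1) := by
  obtain ⟨k, hk⟩ := D.near_one n
  refine ⟨k, fun g hg i j => ?_⟩
  obtain ⟨y, hy, he⟩ := hk g hg i j
  obtain ⟨a, ha⟩ := specialise_intHecke (E := E) ζ f hy
  refine ⟨a, ?_⟩
  have h := congrArg (specialise (E := E) ζ f) he
  rw [map_sub, map_mul, map_pow, map_natCast, ha] at h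
  rw [Matrix.sub_apply, RingHom.mapMatrix_apply, Matrix.map_apply, map_mul, map_pow, map_natCast,
    ← h]
  by_cases hij : i = j
  · subst hij; simp
  · simp [Matrix.one_apply_ne hij]

/-- The Galois representation at a point `f : 𝕋 → O`. -/
theorem exists_galoisRep_at_point [IsDiscreteValuationRing O]
    [IsAdicComplete (IsLocalRing.maximalIdeal O) O]
    (hp : (p : O) ∈ IsLocalRing.maximalIdeal O) (D : TateRep N p)
    (hlev : TorsionFiniteLevel N p) (hquad : TorsionQuadratic N p)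
    (hunr : TorsionUnramified N p) (f : HeckeT N →+* O) :
    ∃ r : GaloisRepAdic O,
      (∀ (ℓ : ℕ) (hℓ : ℓ.Prime) (hℓN : ¬ ℓ ∣ N), ℓ ≠ p →
        ∀ A : ValuationSubring (AlgebraicClosure ℚ), A.LiesOverPrime ℓ →
          ∀ σ : AlgebraicClosure ℚ ≃ₐ[ℚ] AlgebraicClosure ℚ, A.IsFrobeniusAt σ ℓ →
            LinearMap.charpoly (r.ρ σ) =
              X ^ 2 - C (f (CuspForm.heckeAlgebra.T hℓ hℓN (Set.notMem_empty ℓ))) * X
                + C (ℓ : O)) ∧
      ∀ q : ℕ, q.Prime → ¬ q ∣ N → q ≠ p → r.IsUnramifiedAt q := by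
  classical
  obtain ⟨ζ⟩ := exists_padicInt_hom (p := p) hp
  let E := FractionRing O
  let χ : RatHecke N p →+* E := specialise ζ f
  let ρ : (AlgebraicClosure ℚ ≃ₐ[ℚ] AlgebraicClosure ℚ) →* Matrix (Fin 2) (Fin 2) E :=
    χ.mapMatrix.toMonoidHom.comp D.rho
  have hb : ∀ g, Bdd O (p : O) D.denom (ρ g) := by
    intro g i j
    obtain ⟨a, ha⟩ := specialise_intHecke (E := E) ζ f (D.bounded g i j)
    refine ⟨a, ?_⟩
    rw [← ha, map_mul, map_pow, map_natCast, map_pow, map_natCast]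
    rfl
  have hcont : ∀ n, ∃ L : IntermediateField ℚ (AlgebraicClosure ℚ), FiniteDimensional ℚ L ∧
      ∀ σ : AlgebraicClosure ℚ ≃ₐ[ℚ] AlgebraicClosure ℚ, (∀ x ∈ L, σ x = x) →
        Near O (p : O) n (ρ σ - 1) := by
    intro n
    obtain ⟨k, hk⟩ := rep_near_one (E := E) (D := D) ζ f n
    obtain ⟨L, hL, hfix⟩ := hlev k
    exact ⟨L, hL, fun σ hσ => hk σ (hfix σ hσ)⟩
  have hns : ∃ g₀, ρ g₀ = Matrix.diagonal ![(1 : E), -1] := by
    obtain ⟨g, hg⟩ := D.exists_diag
    refine ⟨g, ?_⟩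
    show χ.mapMatrix (D.rho g) = _
    rw [hg]
    ext i j
    fin_cases i <;> fin_cases j <;> simp
  -- the Hecke eigenvalues
  let T : ℕ → O := fun ℓ => if h : ℓ.Prime ∧ ¬ ℓ ∣ N then
    f (CuspForm.heckeAlgebra.T h.1 h.2 (Set.notMem_empty ℓ)) else 0
  let S : Finset ℕ := (N * p).divisors
  have hNp : N * p ≠ 0 := mul_ne_zero (NeZero.ne N) (Fact.out (p := p.Prime)).ne_zero
  have hS : ∀ ℓ, ℓ ∈ S ↔ ℓ ∣ N * p := fun ℓ => by simp [S, hNp]
  have hpS : p ∈ S := (hS p).mpr (dvd_mul_left p N)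
  have hFrob : ∀ ℓ : ℕ, ℓ.Prime → ℓ ∉ S → ∀ A : ValuationSubring (AlgebraicClosure ℚ),
      A.LiesOverPrime ℓ → ∀ σ : AlgebraicClosure ℚ ≃ₐ[ℚ] AlgebraicClosure ℚ,
        A.IsFrobeniusAt σ ℓ →
          ρ σ * ρ σ - algebraMap O E (T ℓ) • ρ σ + (ℓ : E) • 1 = 0 := by
    intro ℓ hℓ hℓS A hA σ hσ
    have hℓNp : ¬ ℓ ∣ N * p := fun h => hℓS ((hS ℓ).mpr h)
    have hℓN : ¬ ℓ ∣ N := fun h => hℓNp (h.mul_right p)
    have h := D.quad σ ℓ hℓ hℓN (hquad ℓ hℓ hℓNp A hA σ hσ)
    simp only [T, dif_pos (And.intro hℓ hℓN)]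
    rw [← specialise_toRatHecke (E := E) ζ f]
    ext i j
    have hij := congrArg χ (congrFun (congrFun h i) j)
    simp only [Matrix.add_apply, Matrix.sub_apply, Matrix.smul_apply, Matrix.zero_apply,
      Matrix.mul_apply, Fin.sum_univ_two, Matrix.one_apply, smul_eq_mul, map_add, map_sub,
      map_mul, map_natCast, map_zero, apply_ite χ, map_one] at hij
    simp only [Matrix.add_apply, Matrix.sub_apply, Matrix.smul_apply, Matrix.zero_apply,
      Matrix.mul_apply, Fin.sum_univ_two, Matrix.one_apply, smul_eq_mul]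
    exact hij
  obtain ⟨r, hr, hr1⟩ := exists_galoisRep_of_rep ρ hp hb hcont hns S hpS T hFrob ζ
  refine ⟨r, fun ℓ hℓ hℓN hℓp A hA σ hσ => ?_, fun q hq hqN hqp A hA σ hσ => ?_⟩
  · have hℓS : ℓ ∉ S := fun h => by
      rcases (Nat.Prime.dvd_mul hℓ).mp ((hS ℓ).mp h) with h' | h'
      · exact hℓN h'
      · exact hℓp ((Nat.prime_dvd_prime_iff_eq hℓ (Fact.out (p := p.Prime))).mp h')
    rw [hr ℓ hℓ hℓS A hA σ hσ]
    simp only [T, dif_pos (And.intro hℓ hℓN)]
  · apply hr1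
    rw [← sub_eq_zero]
    ext i j
    refine separated_of_mem_maximalIdeal hp (IsFractionRing.injective O E) _ fun n => ?_
    obtain ⟨k, hk⟩ := rep_near_one (E := E) (D := D) ζ f n
    refine hk σ (fun x hx => hunr q hq ?_ A hA σ hσ x ⟨k, hx⟩) i j
    intro h
    rcases (Nat.Prime.dvd_mul hq).mp h with h' | h'
    · exact hqN h'
    · exact hqp ((Nat.prime_dvd_prime_iff_eq hq (Fact.out (p := p.Prime))).mp h')

end Specialise

/-- **S30, from the Tate module package.** -/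
theorem exists_galoisRep_of_point (D : TateRep N p) (hlev : TorsionFiniteLevel N p)
    (hquad : TorsionQuadratic N p) (hunr : TorsionUnramified N p)
    (hfin : Module.Finite ℤ (HeckeT N)) (S : Finset ℕ) (hpS : p ∈ S)
    (O : Type) [CommRing O] [IsDomain O] [IsDiscreteValuationRing O]
    [IsAdicComplete (IsLocalRing.maximalIdeal O) O] [Finite (IsLocalRing.ResidueField O)]
    [CharZero O] (hp : (p : O) ∈ IsLocalRing.maximalIdeal O)
    (χ : CuspForm.heckeAlgebra N 2 (↑S : Set ℕ) →+* O) :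
    ∃ (O' : Type) (_ : CommRing O') (_ : IsDomain O') (_ : IsDiscreteValuationRing O')
      (_ : IsAdicComplete (IsLocalRing.maximalIdeal O') O')
      (_ : Finite (IsLocalRing.ResidueField O')) (_ : CharZero O')
      (_ : Algebra O O') (_ : Module.Finite O O') (_ : IsLocalHom (algebraMap O O')),
      Function.Injective (algebraMap O O') ∧
      ∃ ρ : GaloisRepAdic O',
        (∀ (ℓ : ℕ) (hℓ : ℓ.Prime) (hℓN : ¬ ℓ ∣ N) (hℓS : ℓ ∉ (↑S : Set ℕ)),
          ∀ A : ValuationSubring (AlgebraicClosure ℚ), A.LiesOverPrime ℓ →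
            ∀ σ : AlgebraicClosure ℚ ≃ₐ[ℚ] AlgebraicClosure ℚ, A.IsFrobeniusAt σ ℓ →
              LinearMap.charpoly (ρ.ρ σ) =
                X ^ 2 - C (algebraMap O O' (χ (CuspForm.heckeAlgebra.T hℓ hℓN hℓS))) * X
                  + C ((ℓ : O'))) ∧
        (∀ q : ℕ, q.Prime → ¬ q ∣ N → q ≠ p → ρ.IsUnramifiedAt q) := by
  have hle : CuspForm.heckeAlgebra N 2 (↑S : Set ℕ) ≤ CuspForm.heckeAlgebra N 2 (∅ : Set ℕ) :=
    CuspForm.heckeAlgebra_mono (Set.empty_subset _)
  haveI := hfin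
  obtain ⟨O', _, _, _, _, _, _, _, _, _, f, hinj, hf⟩ :=
    exists_extension O (B := HeckeT N) (Subalgebra.inclusion hle).toRingHom
      (Subalgebra.inclusion_injective hle) χ
  have hp' : (p : O') ∈ IsLocalRing.maximalIdeal O' := by
    rw [← map_natCast (algebraMap O O')]
    exact map_nonunit (algebraMap O O') _ hp
  obtain ⟨r, hr, hr'⟩ := exists_galoisRep_at_point hp' D hlev hquad hunr f
  refine ⟨O', ‹_›, ‹_›, ‹_›, ‹_›, ‹_›, ‹_›, ‹_›, ‹_›, ‹_›, hinj, r,
    fun ℓ hℓ hℓN hℓS A hA σ hσ => ?_, hr'⟩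
  rw [hr ℓ hℓ hℓN (fun e => hℓS (e ▸ hpS)) A hA σ hσ, ← hf]
  rfl

end Fermat.Agent.GAL
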