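/-
Finite torsion of `J₀(N)` is fixed at a finite level; wiring of S30 from its inputs.
-/
import Fermat.Agent.GAL.PointRep
import Fermat.Agent.MW.OpenStab
import Fermat.Agent.MW.FFInputs
import Fermat.Agent.MF.Coeff.FieldK

set_option autoImplicit false

open ModularCurve AlgebraicCurve

noncomputable section

namespace Fermat.Agent.GAL

theorem torsionFiniteLevel_of_finite (N p : ℕ) [NeZero N]
    (hfin : ∀ k : ℕ, {x : JZero N | p ^ k • x = 0}.Finite) : TorsionFiniteLevel N p := by
  haveI : FF.IsFunctionField (AlgebraicClosure ℚ) (modularFunctionFieldBar N) :=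
    MF.Coeff.isFunctionField_laurentBaseChange (AlgebraicClosure ℚ) N
  intro k
  obtain ⟨L, hL, h⟩ := MW.jzero_finite_fixed_level (N := N)
    (fun v => MW.exists_unique_pole v) (hfin k)
  exact ⟨L, hL, fun g hg x hx => h g hg x hx⟩

end Fermat.Agent.GAL
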