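/-
Residual Galois representations attached to normalised eigenforms, from the adic ones.
-/
import Fermat.Agent.Eigen.Residue
import Fermat.Prelude.Def_CuspForm_HeckeGaloisRepDatum
import Mathlib.LinearAlgebra.Charpoly.BaseChange

set_option autoImplicit false

open scoped TensorProduct
open Polynomial CongruenceSubgroup

noncomputable section

namespace Fermat.Agent.GAL

/-- The statement that points of the Hecke algebra have attached adic representations. -/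
def PointsHaveGaloisReps : Prop :=
  ∀ (p : ℕ) [Fact p.Prime] (N : ℕ) [NeZero N] (S : Finset ℕ)
      (_hpS : p ∈ S) (_hNS : ∀ q : ℕ, q.Prime → q ∣ N → q ∈ S)
      (𝒪' : Type) [CommRing 𝒪'] [IsDomain 𝒪'] [IsDiscreteValuationRing 𝒪']
      [IsAdicComplete (IsLocalRing.maximalIdeal 𝒪') 𝒪'] [Finite (IsLocalRing.ResidueField 𝒪')]
      [CharZero 𝒪'] (_hp𝒪' : (p : 𝒪') ∈ IsLocalRing.maximalIdeal 𝒪')
      (χ : CuspForm.heckeAlgebra N 2 (↑S : Set ℕ) →+* 𝒪'),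
      ∃ (𝒪'' : Type) (_ : CommRing 𝒪'') (_ : IsDomain 𝒪'') (_ : IsDiscreteValuationRing 𝒪'')
        (_ : IsAdicComplete (IsLocalRing.maximalIdeal 𝒪'') 𝒪'')
        (_ : Finite (IsLocalRing.ResidueField 𝒪'')) (_ : CharZero 𝒪'')
        (_ : Algebra 𝒪' 𝒪'') (_ : Module.Finite 𝒪' 𝒪'') (_ : IsLocalHom (algebraMap 𝒪' 𝒪'')),
      Function.Injective (algebraMap 𝒪' 𝒪'') ∧
      ∃ ρ : GaloisRepAdic 𝒪'',
        (∀ (ℓ : ℕ) (hℓ : ℓ.Prime) (hℓN : ¬ ℓ ∣ N) (hℓS : ℓ ∉ (↑S : Set ℕ)),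
          ∀ A : ValuationSubring (AlgebraicClosure ℚ), A.LiesOverPrime ℓ →
            ∀ σ : AlgebraicClosure ℚ ≃ₐ[ℚ] AlgebraicClosure ℚ, A.IsFrobeniusAt σ ℓ →
              LinearMap.charpoly (ρ.ρ σ) =
                X ^ 2 - C (algebraMap 𝒪' 𝒪'' (χ (CuspForm.heckeAlgebra.T hℓ hℓN hℓS))) * X
                  + C ((ℓ : 𝒪''))) ∧
        (∀ q : ℕ, q.Prime → ¬ q ∣ N → q ≠ p → ρ.IsUnramifiedAt q)

/-- A representation is trivial on a level when it is trivial. -/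
def trivialResidualRep (k : Type) [Field k] : ResidualGaloisRep k where
  V := Fin 2 → k
  finrank_eq := Module.finrank_fin_fun k
  ρ := 1
  factorsThroughFiniteLevel := ⟨⊥, inferInstance, fun _ _ => rfl⟩

theorem exists_residualGaloisRep_level_zero {N : ℕ} (hN : N = 0)
    (g : CuspForm (Gamma0 N) 2) {p : ℕ} {k : Type} [Field k] (φ : integralClosure ℤ ℂ →+* k) :
    ∃ ρ : ResidualGaloisRep k, ρ.IsAttachedTo g φ ∧
      ∀ ℓ : ℕ, ℓ.Prime → ¬ ℓ ∣ N * p → ρ.IsUnramifiedAt ℓ := by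
  subst hN
  refine ⟨trivialResidualRep k, fun ℓ _ h => absurd (dvd_zero ℓ) h, fun ℓ _ h => ?_⟩
  rw [zero_mul] at h
  exact absurd (dvd_zero ℓ) h

/-- **S29, from points having representations.** -/
theorem exists_residualGaloisRep (hS30 : PointsHaveGaloisReps) {N : ℕ} [NeZero N]
    [Module.Finite ℤ ↥(CuspForm.heckeAlgebra N 2 ∅)]
    (hfin : ∀ S : Set ℕ, Module.Finite ℤ ↥(CuspForm.heckeAlgebra N 2 S))
    {g : CuspForm (Gamma0 N) 2} (hg : g.IsNormalizedEigenform) {p : ℕ} (hp : p.Prime) {k : Type}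
    [Field k] [CharP k p] (φ : integralClosure ℤ ℂ →+* k) :
    ∃ ρ : ResidualGaloisRep k, ρ.IsAttachedTo g φ ∧
      ∀ ℓ : ℕ, ℓ.Prime → ¬ ℓ ∣ N * p → ρ.IsUnramifiedAt ℓ := by
  haveI : Fact p.Prime := ⟨hp⟩
  have hNp : N * p ≠ 0 := mul_ne_zero (NeZero.ne N) hp.ne_zero
  let S : Finset ℕ := (N * p).divisors
  have hS : ∀ ℓ, ℓ ∈ S ↔ ℓ ∣ N * p := fun ℓ => by simp [S, hNp]
  haveI := hfin (↑S : Set ℕ)
  obtain ⟨O, _, _, _, _, _, _, χ, ι, hpO, -, -, hι⟩ :=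
    Fermat.Agent.Eigen.exists_point_of_eigenform hg (↑S : Set ℕ) hp φ
  obtain ⟨O', _, _, _, _, _, _, _, _, _, -, r, hr, hr'⟩ :=
    hS30 p N S ((hS p).mpr (dvd_mul_left p N))
      (fun q _ hq => (hS q).mpr (hq.mul_right p)) O hpO χ
  haveI : Algebra.IsAlgebraic (IsLocalRing.ResidueField O) (IsLocalRing.ResidueField O') :=
    Algebra.IsAlgebraic.of_finite _ _
  obtain ⟨ι', hι'⟩ :=
    Fermat.Agent.Eigen.exists_finiteField_lift φ hp (F' := IsLocalRing.ResidueField O') ι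
  refine ⟨r.residual.baseChangeAlong ι', fun ℓ hℓ hℓN hℓk A hA σ hσ => ?_,
    fun ℓ hℓ hℓNp A hA σ hσ => ?_⟩
  · have hℓp : ℓ ≠ p := fun e => hℓk (by rw [e, CharP.cast_eq_zero])
    have hℓS : ℓ ∉ (↑S : Set ℕ) := fun h => by
      rcases (Nat.Prime.dvd_mul hℓ).mp ((hS ℓ).mp h) with h' | h'
      · exact hℓN h'
      · exact hℓp ((Nat.prime_dvd_prime_iff_eq hℓ hp).mp h')
    refine ⟨Fermat.Agent.Eigen.intCoeff hg ℓ, Fermat.Agent.Eigen.coe_intCoeff hg ℓ, ?_⟩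
    letI : Algebra (IsLocalRing.ResidueField O') k := ι'.toAlgebra
    show LinearMap.charpoly (((r.ρ σ).baseChange (IsLocalRing.ResidueField O')).baseChange k) = _
    rw [LinearMap.charpoly_baseChange, LinearMap.charpoly_baseChange, hr ℓ hℓ hℓN hℓS A hA σ hσ]
    simp only [Polynomial.map_add, Polynomial.map_sub, Polynomial.map_mul, Polynomial.map_pow,
      Polynomial.map_X, Polynomial.map_C, Polynomial.map_natCast, map_natCast]
    rw [← hι ℓ hℓ hℓN hℓS, ← hι']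
    rfl
  · have h1 : r.ρ σ = 1 := hr' ℓ hℓ (fun h => hℓNp (h.mul_right p))
      (fun e => hℓNp (e ▸ dvd_mul_left p N)) A hA σ hσ
    letI : Algebra (IsLocalRing.ResidueField O') k := ι'.toAlgebra
    show ((r.ρ σ).baseChange (IsLocalRing.ResidueField O')).baseChange k = 1
    rw [h1, LinearMap.baseChange_one, LinearMap.baseChange_one]

end Fermat.Agent.GAL
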