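/-
S30 reduced to its named inputs: the Tate module package, torsion finiteness, 
and the existence of specialisations (S37).
-/
import Fermat.Agent.GAL.Level
import Fermat.Agent.GAL.ResidualRep
import Fermat.Agent.HK.HeckeFinal

set_option autoImplicit false

open ModularCurve

noncomputable section

namespace Fermat.Agent.GAL

theorem pointsHaveGaloisReps_of_inputs
    (hT : ∀ (p : ℕ) [Fact p.Prime] (N : ℕ) [NeZero N], Nonempty (TateRep N p))
    (hfin : ∀ (p : ℕ) [Fact p.Prime] (N : ℕ) [NeZero N] (k : ℕ),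
      {x : JZero N | p ^ k • x = 0}.Finite)
    (hH : ∀ (N : ℕ) [NeZero N], Module.Finite ℤ (HeckeT N))
    (hspec : ∀ (N p : ℕ) [NeZero N], HeckeOperatorsCommuteBar N →
      letI := heckeModuleBar N
      ∀ (_ : SMulCommClass (AlgebraicClosure ℚ ≃ₐ[ℚ] AlgebraicClosure ℚ) HeckeAlg (JZero N)),
        SpecializationExists (K := ℚ) (L := AlgebraicClosure ℚ) N p (JZero N)) :
    PointsHaveGaloisReps := by
  intro p _ N _ S hpS _ O _ _ _ _ _ _ hp χ
  have hc : HeckeOperatorsCommuteBar N := Fermat.Agent.HK.Corr.heckeOperatorsCommuteBar N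
  obtain ⟨hquad, hunr⟩ := torsion_properties_of_specializationExists N p hc
    (Fermat.Agent.HK.Corr.smulCommClass_heckeModuleBar N) (hspec N p hc)
  obtain ⟨D⟩ := hT p N
  exact exists_galoisRep_of_point D (torsionFiniteLevel_of_finite N p (hfin p N)) hquad hunr
    (hH N) S hpS O hp χ

end Fermat.Agent.GAL
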