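/-
The Tate module inputs of S30, filled in; the only remaining input is S37.
-/
import Fermat.Agent.GAL.S30Inputs
import Fermat.Agent.HK.TateKummer
import Fermat.Agent.HK.Kummer.Bijective
import Fermat.Agent.MF.IntStruct.Hecke

set_option autoImplicit false

open ModularCurve AlgebraicCurve

noncomputable section

namespace Fermat.Agent.GAL

theorem finite_jZero_torsion (p : ℕ) [Fact p.Prime] (N : ℕ) [NeZero N] (k : ℕ) :
    {x : JZero N | p ^ k • x = 0}.Finite := by
  haveI : NeZero (p ^ k) := ⟨pow_ne_zero k (Fact.out (p := p.Prime)).ne_zero⟩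
  haveI : Finite (Pic0.torsion (AlgebraicClosure ℚ) (modularFunctionFieldBar N) (p ^ k)) :=
    Finite.of_equiv _ (Fermat.Agent.HK.jTorsionEquiv N (p ^ k)).symm.toEquiv
  refine ((Pic0.torsion (AlgebraicClosure ℚ) (modularFunctionFieldBar N) (p ^ k) :
    Set (JZero N)).toFinite).subset fun x hx => ?_
  rw [SetLike.mem_coe, Pic0.mem_torsion, natCast_zsmul]
  exact hx

/-- S30 from S37 alone. -/
theorem pointsHaveGaloisReps_of_specialization
    (hspec : ∀ (N p : ℕ) [NeZero N], HeckeOperatorsCommuteBar N →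
      letI := heckeModuleBar N
      ∀ (_ : SMulCommClass (AlgebraicClosure ℚ ≃ₐ[ℚ] AlgebraicClosure ℚ) HeckeAlg (JZero N)),
        SpecializationExists (K := ℚ) (L := AlgebraicClosure ℚ) N p (JZero N)) :
    PointsHaveGaloisReps :=
  pointsHaveGaloisReps_of_inputs
    (fun p _ N _ => Fermat.Agent.HK.exists_tateRep_of_surjective N p
      fun k => haveI : NeZero (p ^ k) := ⟨pow_ne_zero k (Fact.out (p := p.Prime)).ne_zero⟩
        Fermat.Agent.HK.jKummer_surjective N (p ^ k))
    (fun p _ N _ k => finite_jZero_torsion p N k)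
    (fun N _ => Fermat.Agent.MF.IntStruct.moduleFinite_heckeAlgebra N 2 (∅ : Set ℕ))
    hspec

end Fermat.Agent.GAL
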