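/-
S29 from S37 alone.
-/
import Fermat.Agent.GAL.S30Tate

set_option autoImplicit false

open ModularCurve CongruenceSubgroup

noncomputable section

namespace Fermat.Agent.GAL

theorem exists_residualGaloisRep_of_specialization
    (hspec : ∀ (N p : ℕ) [NeZero N], HeckeOperatorsCommuteBar N →
      letI := heckeModuleBar N
      ∀ (_ : SMulCommClass (AlgebraicClosure ℚ ≃ₐ[ℚ] AlgebraicClosure ℚ) HeckeAlg (JZero N)),
        SpecializationExists (K := ℚ) (L := AlgebraicClosure ℚ) N p (JZero N))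
    {N : ℕ} {g : CuspForm (Gamma0 N) 2} (hg : g.IsNormalizedEigenform) {p : ℕ} (hp : p.Prime)
    {k : Type} [Field k] [CharP k p] (φ : integralClosure ℤ ℂ →+* k) :
    ∃ ρ : ResidualGaloisRep k, ρ.IsAttachedTo g φ ∧
      ∀ ℓ : ℕ, ℓ.Prime → ¬ ℓ ∣ N * p → ρ.IsUnramifiedAt ℓ := by
  rcases eq_or_ne N 0 with hN | hN
  · exact exists_residualGaloisRep_level_zero hN g φ
  haveI : NeZero N := ⟨hN⟩
  haveI := Fermat.Agent.MF.IntStruct.moduleFinite_heckeAlgebra N 2 (∅ : Set ℕ)
  exact exists_residualGaloisRep (pointsHaveGaloisReps_of_specialization hspec)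
    (fun S => Fermat.Agent.MF.IntStruct.moduleFinite_heckeAlgebra N 2 S) hg hp φ

end Fermat.Agent.GAL
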